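import Mathlib
import Fermat.Agent.S14.PlumbInertia
import Fermat.Agent.S55.LG.QbarInertia

/-!
# Program Q (S36), (C4) descent : lifting inertia for a GIVEN valuation subring of `ℚ̄`

`𝔸 ⊂ ℚ̄` a valuation subring over `q`, `L / ℚ` finite Galois, `P = lgqiCenter L 𝔸` the prime of
`𝓞 L` below `𝔸`.  Then the restriction `I_𝔸 → Ideal.inertia Gal(L/ℚ) P` is SURJECTIVE
(`sqdi_inertia_lift`).  This is `S14.exists_inertia_lift` with the valuation subring prescribed
(the proof is the same: move the prime back with `Gal(ℚ̄/L)`, then correct the residue action).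
-/

set_option autoImplicit false
set_option linter.style.haveILetI false
set_option linter.unusedVariables false
set_option linter.unusedSectionVars false

open scoped Pointwise
noncomputable section

namespace Fermat.Agent.SQ

open NumberField Fermat.Agent.S54 Fermat.Agent.S14 Fermat.Agent.S55

attribute [local instance] Fermat.Agent.S14.plumbU_isAlgebraic Fermat.Agent.S14.plumbU_isAlgClosure
  Fermat.Agent.S14.plumbU_normal Fermat.Agent.S14.plumbU_isGalois
  Fermat.Agent.S14.plumbU_topZb Fermat.Agent.S14.plumbU_discZb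
  Fermat.Agent.S14.plumbU_algebra Fermat.Agent.S14.plumbU_smulCommClass
  Fermat.Agent.S14.plumbU_contZb Fermat.Agent.S14.plumbU_invZb

/-- **Surjectivity of the restriction of inertia**, for a prescribed valuation subring. -/
theorem sqdi_inertia_lift (L : IntermediateField ℚ (AlgebraicClosure ℚ)) [FiniteDimensional ℚ L]
    [IsGalois ℚ L] (A : ValuationSubring (AlgebraicClosure ℚ)) {ℓ : ℕ} (hℓ : ℓ.Prime)
    (hAℓ : A.LiesOverPrime ℓ)
    (σ : L ≃ₐ[ℚ] L)
    (hσ : haveI : NumberField L :=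
        { to_charZero := inferInstance, to_finiteDimensional := inferInstance }
      σ ∈ Ideal.inertia (L ≃ₐ[ℚ] L) (lgqiCenter L A)) :
    ∃ τ : AlgebraicClosure ℚ ≃ₐ[ℚ] AlgebraicClosure ℚ,
      τ ∈ A.inertiaSubgroupIn ℚ ∧ τ.restrictNormal L = σ := by
  classical
  haveI : NumberField L := { to_charZero := inferInstance, to_finiteDimensional := inferInstance }
  set P : Ideal (𝓞 L) := lgqiCenter L A with hPdef
  haveI hPprime : P.IsPrime := lgqiCenter_isPrime L A
  have hP : P ≠ ⊥ := lgqiCenter_ne_bot L A hℓ hAℓ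
  have hPmax : P.IsMaximal := Ideal.IsPrime.isMaximal inferInstance hP
  set Q := primeBelow A with hQdef
  have hQP : Q.comap (algebraMap (𝓞 L) Zb) = P := rfl
  -- Step 4: a lift of `σ`
  obtain ⟨τ₀, hτ₀⟩ := AlgEquiv.restrictNormalHom_surjective (F := ℚ) (K₁ := L) Qb σ
  have hτ₀' : τ₀.restrictNormal L = σ := hτ₀
  -- compatibility of the two actions
  have hcomm : ∀ (τ : GQ) (x : 𝓞 L),
      τ • plumbU_toZb L x = plumbU_toZb L ((τ.restrictNormal L) • x) := by
    intro τ x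
    apply Subtype.ext
    show τ ((x : L) : Qb) = (((τ.restrictNormal L) (x : L) : L) : Qb)
    exact (AlgEquiv.restrictNormal_commutes τ L (x : L)).symm
  have hσstab : ∀ (ρ : L ≃ₐ[ℚ] L), ρ ∈ Ideal.inertia (L ≃ₐ[ℚ] L) P → ∀ x : 𝓞 L,
      ρ • x ∈ P ↔ x ∈ P := by
    intro ρ hρ x
    have h1 : ρ • P = P := Ideal.inertia_le_stabilizer P hρ
    conv_lhs => rw [← h1]
    exact Ideal.smul_mem_pointwise_smul_iff
  -- Step 5: move `τ₀ • Q` back to `Q`
  have hunder : (τ₀ • Q).under (𝓞 L) = Q.under (𝓞 L) := by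
    show (τ₀ • Q).comap (algebraMap (𝓞 L) Zb) = Q.comap (algebraMap (𝓞 L) Zb)
    rw [hQP]
    ext x
    rw [Ideal.mem_comap, Ideal.mem_pointwise_smul_iff_inv_smul_mem, plumbU_algebraMap_eq, hcomm,
      ← plumbU_algebraMap_eq, ← Ideal.mem_comap, hQP]
    have h2 : (τ₀⁻¹).restrictNormal L = σ⁻¹ := by
      rw [← hτ₀]
      exact map_inv (AlgEquiv.restrictNormalHom L) τ₀
    rw [h2]
    exact hσstab σ⁻¹ (inv_mem hσ) x
  obtain ⟨g, hg⟩ := Algebra.IsInvariant.exists_smul_of_under_eq_of_profinite (A := 𝓞 L)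
    (G := plumbU_GL L) (τ₀ • Q) Q hunder
  set τ₁ : GQ := plumbU_res L g * τ₀ with hτ₁def
  have hτ₁Q : τ₁ • Q = Q := by
    rw [hτ₁def, mul_smul, plumbU_res_smul_ideal, ← hg]
  have hτ₁L : τ₁.restrictNormal L = σ := by
    rw [hτ₁def, plumbU_restrictNormal_res, hτ₀']
  -- Step 6: correct the action on the residue field
  haveI hQℓ := primeBelow_liesOver A ℓ hℓ hAℓ
  haveI hQlies : Q.LiesOver P := ⟨hQP.symm⟩
  let φ₁ : (Zb ⧸ Q) ≃ₐ[ℤ ⧸ Ideal.span {(ℓ : ℤ)}] (Zb ⧸ Q) :=
    Ideal.Quotient.stabilizerHom Q (Ideal.span {(ℓ : ℤ)}) GQ ⟨τ₁, hτ₁Q⟩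
  have hφ₁ : ∀ b : Zb, φ₁ (Ideal.Quotient.mk Q b) = Ideal.Quotient.mk Q (τ₁ • b) := fun b => rfl
  let σbar : (Zb ⧸ Q) ≃ₐ[𝓞 L ⧸ P] (Zb ⧸ Q) := AlgEquiv.ofRingEquiv (f := φ₁.toRingEquiv) (by
    intro y
    obtain ⟨x, rfl⟩ := Ideal.Quotient.mk_surjective y
    show φ₁ (Ideal.Quotient.mk Q (algebraMap (𝓞 L) Zb x)) =
      Ideal.Quotient.mk Q (algebraMap (𝓞 L) Zb x)
    rw [hφ₁, Ideal.Quotient.eq, plumbU_algebraMap_eq, hcomm, ← map_sub, ← plumbU_algebraMap_eq,
      ← Ideal.mem_comap, hQP, hτ₁L]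
    exact hσ x)
  have hσbar : ∀ b : Zb, σbar (Ideal.Quotient.mk Q b) = Ideal.Quotient.mk Q (τ₁ • b) := fun b => rfl
  obtain ⟨ρ, hρ⟩ := Ideal.Quotient.stabilizerHom_surjective_of_profinite (G := plumbU_GL L)
    P Q σbar
  have hρ' : ∀ b : Zb, Ideal.Quotient.mk Q ((ρ : plumbU_GL L) • b) = Ideal.Quotient.mk Q (τ₁ • b) := by
    intro b
    rw [← hσbar, ← hρ]
    rfl
  set τ : GQ := plumbU_res L (ρ : plumbU_GL L)⁻¹ * τ₁ with hτdef
  have hτQ : τ • Q = Q := by
    rw [hτdef, mul_smul, hτ₁Q, plumbU_res_smul_ideal]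
    exact MulAction.mem_stabilizer_iff.mp (inv_mem ρ.2)
  have hτL : τ.restrictNormal L = σ := by
    rw [hτdef, plumbU_restrictNormal_res, hτ₁L]
  have hτtriv : ∀ b : Zb, τ • b - b ∈ Q := by
    intro b
    have h1 : (ρ : plumbU_GL L) • (τ • b) = τ₁ • b := by
      rw [hτdef, mul_smul, plumbU_res_smul, smul_inv_smul]
    have h2 := hρ' (τ • b)
    rw [h1, Ideal.Quotient.eq, ← smul_sub] at h2
    have h3 : τ₁ • (b - τ • b) ∈ τ₁ • Q := by rw [hτ₁Q]; exact h2
    rw [Ideal.smul_mem_pointwise_smul_iff] at h3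
    have h4 := Q.neg_mem h3
    rwa [neg_sub] at h4
  -- Step 7: `τ` lies in the inertia group of `A`
  have hτstab : τ ∈ MulAction.stabilizer GQ (primeBelow A) := MulAction.mem_stabilizer_iff.mpr hτQ
  have hτmem : τ ∈ A.decompositionSubgroup ℚ := by
    rw [MulAction.mem_stabilizer_iff]
    apply le_antisymm
    · intro x hx
      rw [ValuationSubring.mem_pointwise_smul_iff_inv_smul_mem] at hx
      have := smul_mem_of_mem_stabilizer A ℓ hℓ hAℓ τ hτstab _ hx
      simpa using this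
    · intro x hx
      rw [ValuationSubring.mem_pointwise_smul_iff_inv_smul_mem]
      exact smul_mem_of_mem_stabilizer A ℓ hℓ hAℓ τ⁻¹ (inv_mem hτstab) x hx
  refine ⟨τ, ⟨⟨τ, hτmem⟩, ?_, rfl⟩, hτL⟩
  -- first for integral elements
  have hint : ∀ b : Zb, (⟨τ, hτmem⟩ : A.decompositionSubgroup ℚ) •
      IsLocalRing.residue A (toValuationSubring A b) =
      IsLocalRing.residue A (toValuationSubring A b) := by
    intro b
    rw [← IsLocalRing.ResidueField.residue_smul, ← sub_eq_zero, ← map_sub,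
      IsLocalRing.residue_eq_zero_iff]
    have h2 : toValuationSubring A (τ • b - b) ∈ IsLocalRing.maximalIdeal A := hτtriv b
    have h3 : (⟨τ, hτmem⟩ : A.decompositionSubgroup ℚ) • toValuationSubring A b -
        toValuationSubring A b = toValuationSubring A (τ • b - b) := by
      rw [map_sub]
      rfl
    rw [h3]
    exact h2
  have hall : ∀ xbar : IsLocalRing.ResidueField A,
      (⟨τ, hτmem⟩ : A.decompositionSubgroup ℚ) • xbar = xbar := by
    intro xbar
    obtain ⟨a, rfl⟩ := IsLocalRing.residue_surjective xbar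
    obtain ⟨y, b, hy, hb, hyA, hyn, hxy⟩ := exists_integral_mul_eq A ℓ hℓ hAℓ a.1 a.2
      ((IsFractionRing.isAlgebraic_iff ℤ ℚ Qb).mpr (Algebra.IsAlgebraic.isAlgebraic a.1))
    have hmul : a * toValuationSubring A ⟨y, hy⟩ = toValuationSubring A ⟨b, hb⟩ := Subtype.ext hxy
    have hyres : IsLocalRing.residue A (toValuationSubring A ⟨y, hy⟩) ≠ 0 := by
      rw [Ne, IsLocalRing.residue_eq_zero_iff, ← ValuationSubring.coe_mem_nonunits_iff]
      exact hyn
    have h1 := congrArg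
      (fun t => (⟨τ, hτmem⟩ : A.decompositionSubgroup ℚ) • IsLocalRing.residue A t) hmul
    simp only [map_mul, smul_mul', hint] at h1
    have h2 := congrArg (fun t => IsLocalRing.residue A t) hmul
    simp only [map_mul] at h2
    rw [← h2] at h1
    exact mul_right_cancel₀ hyres h1
  show (⟨τ, hτmem⟩ : A.decompositionSubgroup ℚ) ∈ (MulSemiringAction.toRingAut
    (A.decompositionSubgroup ℚ) (IsLocalRing.ResidueField A)).ker
  rw [MonoidHom.mem_ker]
  ext xbar
  exact hall xbar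

end Fermat.Agent.SQ
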