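import Mathlib
import Fermat.Agent.SS.Geo.Fixed

/-!
# Program Q (S36), leaf (C4) : `F_E(N)` over `F_{E₀}(N)`, `E₀ = E^{I}` the inertia field (prefix `sqdf`)

`𝔸 ⊂ ℚ̄` a valuation subring, `E / ℚ` finite normal, `E₀ = ssgfE0 𝔸 E`, `ι = ssgfIota 𝔸 E N`.

* `sqdf_exists_primitive` : `E = E₀[θ]`, `θ` a root of a monic separable `p ∈ E₀[X]`;
* `sqdf_gen` : `F_E(N) = ι(F_{E₀}(N))[θ]`;
* `sqdf_fixed` : an element of `F_E(N)` fixed by the inertia group comes from `F_{E₀}(N)`.
-/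

set_option autoImplicit false
set_option linter.unusedSectionVars false
set_option linter.unusedVariables false
set_option linter.style.haveILetI false
set_option synthInstance.maxHeartbeats 400000

noncomputable section

namespace Fermat.Agent.SQ

open Polynomial ModularCurve AlgebraicCurve IntermediateField Fermat.Agent.S18 Fermat.Agent.SS

local notation "Qb" => AlgebraicClosure ℚ

variable (A : ValuationSubring Qb) (E : IntermediateField ℚ Qb)

/-- `E = E₀[θ]` with `θ` a root of a monic separable polynomial over `E₀`. -/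
theorem sqdf_exists_primitive [FiniteDimensional ℚ E] :
    ∃ (θ : E) (p : (ssgfE0 A E)[X]), p.Monic ∧ p.Separable ∧
      p.eval₂ (ssgfIncl A E) θ = 0 ∧
      ∀ x : E, ∃ P : (ssgfE0 A E)[X], x = P.eval₂ (ssgfIncl A E) θ := by
  letI : Algebra (ssgfE0 A E) E := (ssgfIncl A E).toAlgebra
  haveI : IsScalarTower ℚ (ssgfE0 A E) E := IsScalarTower.of_algebraMap_eq fun x => rfl
  haveI : FiniteDimensional (ssgfE0 A E) E := Module.Finite.of_restrictScalars_finite ℚ _ _
  obtain ⟨θ, hθ⟩ := Field.exists_primitive_element (ssgfE0 A E) E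
  have hint : IsIntegral (ssgfE0 A E) θ := Algebra.IsIntegral.isIntegral θ
  refine ⟨θ, minpoly (ssgfE0 A E) θ, minpoly.monic hint,
    Algebra.IsSeparable.isSeparable (ssgfE0 A E) θ, ?_, fun x => ?_⟩
  · have := minpoly.aeval (ssgfE0 A E) θ
    rwa [aeval_def] at this
  · have hx : x ∈ (ssgfE0 A E)⟮θ⟯.toSubalgebra := by
      rw [hθ]; exact Algebra.mem_top
    rw [adjoin_simple_toSubalgebra_of_isAlgebraic hint.isAlgebraic,
      Algebra.adjoin_singleton_eq_range_aeval] at hx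
    obtain ⟨P, hP⟩ := hx
    refine ⟨P, ?_⟩
    rw [← hP]
    exact aeval_def _ _

variable (N : ℕ) [NeZero N]

/-- the two structure maps to `F_E(N)` agree on `E₀`. -/
theorem sqdf_comp_eq :
    (ssgfIota A E N).comp (algebraMap (ssgfE0 A E) (modularFunctionFieldFullC (ssgfE0 A E) N)) =
      (algebraMap E (modularFunctionFieldFullC E N)).comp (ssgfIncl A E) :=
  RingHom.ext fun c => ssgfIota_algebraMap A E N c

/-- `F_E(N) = ι(F_{E₀}(N))[θ]`. -/
theorem sqdf_gen (θ : E) (p : (ssgfE0 A E)[X]) (hpm : p.Monic)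
    (hpθ : p.eval₂ (ssgfIncl A E) θ = 0)
    (hθ : ∀ x : E, ∃ P : (ssgfE0 A E)[X], x = P.eval₂ (ssgfIncl A E) θ)
    (y : modularFunctionFieldFullC E N) :
    ∃ P : (modularFunctionFieldFullC (ssgfE0 A E) N)[X],
      y = P.eval₂ (ssgfIota A E N) (algebraMap E (modularFunctionFieldFullC E N) θ) := by
  letI : Algebra (modularFunctionFieldFullC (ssgfE0 A E) N) (modularFunctionFieldFullC E N) :=
    (ssgfIota A E N).toAlgebra
  obtain ⟨θ', hθ'⟩ : ∃ t, t = algebraMap E (modularFunctionFieldFullC E N) θ := ⟨_, rfl⟩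
  have hcomp : (algebraMap (modularFunctionFieldFullC (ssgfE0 A E) N)
      (modularFunctionFieldFullC E N)).comp
        (algebraMap (ssgfE0 A E) (modularFunctionFieldFullC (ssgfE0 A E) N)) =
      (algebraMap E (modularFunctionFieldFullC E N)).comp (ssgfIncl A E) := sqdf_comp_eq A E N
  have hconst : ∀ P : (ssgfE0 A E)[X],
      algebraMap E (modularFunctionFieldFullC E N) (P.eval₂ (ssgfIncl A E) θ) =
        aeval θ' (P.map (algebraMap (ssgfE0 A E) (modularFunctionFieldFullC (ssgfE0 A E) N))) := by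
    intro P
    rw [aeval_def, eval₂_map, hcomp, Polynomial.hom_eval₂, hθ']
  have hint : IsIntegral (modularFunctionFieldFullC (ssgfE0 A E) N) θ' := by
    refine ⟨p.map (algebraMap (ssgfE0 A E) (modularFunctionFieldFullC (ssgfE0 A E) N)),
      hpm.map _, ?_⟩
    have h := hconst p
    rw [hpθ, map_zero, aeval_def] at h
    exact h.symm
  have hmemθ : ∀ P : (modularFunctionFieldFullC (ssgfE0 A E) N)[X],
      aeval θ' P ∈ (modularFunctionFieldFullC (ssgfE0 A E) N)⟮θ'⟯ := by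
    intro P
    have h1 : aeval θ' P ∈ Algebra.adjoin (modularFunctionFieldFullC (ssgfE0 A E) N) {θ'} :=
      Polynomial.aeval_mem_adjoin_singleton _ _
    exact IntermediateField.algebra_adjoin_le_adjoin _ _ h1
  have key : ∀ z : LaurentSeries E, z ∈ modularFunctionFieldFullC E N →
      ∃ t ∈ (modularFunctionFieldFullC (ssgfE0 A E) N)⟮θ'⟯, (t : LaurentSeries E) = z := by
    intro z hz
    have hz' : z ∈ Subfield.closure
        (Set.range (algebraMap E (LaurentSeries E)) ∪ divisorExpansionsC E N) := hz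
    have hle : Subfield.closure
        (Set.range (algebraMap E (LaurentSeries E)) ∪ divisorExpansionsC E N) ≤
        ((modularFunctionFieldFullC (ssgfE0 A E) N)⟮θ'⟯.toSubfield).map
          ((modularFunctionFieldFullC E N).val : modularFunctionFieldFullC E N →+*
            LaurentSeries E) := by
      rw [Subfield.closure_le]
      rintro w (⟨c, rfl⟩ | ⟨d, hd, hdN, rfl⟩)
      · obtain ⟨P, hP⟩ := hθ c
        refine ⟨algebraMap E (modularFunctionFieldFullC E N) c, ?_, rfl⟩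
        rw [hP, hconst]
        exact hmemθ _
      · refine ⟨algebraMap (modularFunctionFieldFullC (ssgfE0 A E) N)
          (modularFunctionFieldFullC E N)
          ⟨qExpand (ssgfE0 A E) d (jqModC (ssgfE0 A E)), jqModCd_mem_full (ssgfE0 A E) N hdN⟩,
          IntermediateField.algebraMap_mem _ _, ?_⟩
        show coeffMap (ssgfIncl A E) (qExpand (ssgfE0 A E) d (jqModC (ssgfE0 A E))) =
          qExpand E d (jqModC E)
        rw [coeffMap_qExpand, coeffMap_jqModC]
    obtain ⟨t, ht, htz⟩ := hle hz'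
    exact ⟨t, ht, htz⟩
  obtain ⟨t, ht, hty⟩ := key y.1 y.2
  have hty' : t = y := Subtype.ext hty
  rw [hty'] at ht
  have hy : y ∈ ((modularFunctionFieldFullC (ssgfE0 A E) N)⟮θ'⟯).toSubalgebra := ht
  rw [adjoin_simple_toSubalgebra_of_isAlgebraic hint.isAlgebraic,
    Algebra.adjoin_singleton_eq_range_aeval] at hy
  obtain ⟨P, hP⟩ := hy
  refine ⟨P, ?_⟩
  rw [← hP, ← hθ']
  exact aeval_def θ' P

/-! ### the inertia group in `Gal(E/ℚ)` and its fixed points -/

/-- the image of the inertia group of `𝔸` in `Gal(E/ℚ)`. -/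
def sqdfH [Normal ℚ E] : Subgroup (E ≃ₐ[ℚ] E) :=
  (A.inertiaSubgroupIn ℚ).map (AlgEquiv.restrictNormalHom E)

theorem mem_sqdfH [Normal ℚ E] {σ : Qb ≃ₐ[ℚ] Qb} (hσ : σ ∈ A.inertiaSubgroupIn ℚ) :
    σ.restrictNormal E ∈ sqdfH A E :=
  ⟨σ, hσ, rfl⟩

/-- a constant fixed by the inertia group lies in `E₀`. -/
theorem sqdf_const_of_fixed [Normal ℚ E] (c : E) (hc : ∀ τ ∈ sqdfH A E, τ c = c) :
    ∃ c₀ : ssgfE0 A E, ssgfIncl A E c₀ = c :=
  ssgf_exists_of_fixed A E c fun σ hσ => hc _ (mem_sqdfH A E hσ)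

/-- the inertia group fixes the image of `F_{E₀}(N)` pointwise. -/
theorem sqdf_aut_iota [Normal ℚ E] {τ : E ≃ₐ[ℚ] E} (hτ : τ ∈ sqdfH A E)
    (x : modularFunctionFieldFullC (ssgfE0 A E) N) :
    ssdAutRing E N τ (ssgfIota A E N x) = ssgfIota A E N x := by
  obtain ⟨σ, hσ, rfl⟩ := hτ
  apply Subtype.ext
  show coeffMap ((σ.restrictNormal E : E ≃ₐ[ℚ] E) : E →+* E)
      (coeffMap (ssgfIncl A E) (x : LaurentSeries (ssgfE0 A E))) =
    coeffMap (ssgfIncl A E) (x : LaurentSeries (ssgfE0 A E))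
  rw [coeffMap_coeffMap]
  exact coeffMap_congr (RingHom.ext fun c => ssgf_restrict_incl A E hσ c) _

/-- **AN ELEMENT OF `F_E(N)` FIXED BY THE INERTIA GROUP COMES FROM `F_{E₀}(N)`.** -/
theorem sqdf_fixed [FiniteDimensional ℚ E] [Normal ℚ E] (y : modularFunctionFieldFullC E N)
    (hy : ∀ τ ∈ sqdfH A E, ssdAutRing E N τ y = y) :
    ∃ f : modularFunctionFieldFullC (ssgfE0 A E) N, ssgfIota A E N f = y := by
  classical
  obtain ⟨θ, p, hpm, -, hpθ, hθ⟩ := sqdf_exists_primitive A E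
  obtain ⟨P, hP⟩ := sqdf_gen A E N θ p hpm hpθ hθ y
  haveI : Fintype ↥(sqdfH A E) := Fintype.ofFinite _
  obtain ⟨m, hm⟩ : ∃ m : ℕ, m = Fintype.card ↥(sqdfH A E) := ⟨_, rfl⟩
  have hm0 : m ≠ 0 := hm ▸ Fintype.card_ne_zero
  -- the averaged powers of `θ`
  have hc : ∀ i : ℕ, ∃ c₀ : ssgfE0 A E,
      ssgfIncl A E c₀ = ∑ τ : ↥(sqdfH A E), (τ : E ≃ₐ[ℚ] E) (θ ^ i) := by
    intro i
    apply sqdf_const_of_fixed
    intro τ' hτ'
    rw [map_sum]
    exact Equiv.sum_comp (Equiv.mulLeft (⟨τ', hτ'⟩ : ↥(sqdfH A E)))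
      (fun τ : ↥(sqdfH A E) => (τ : E ≃ₐ[ℚ] E) (θ ^ i))
  choose c₀ hc₀ using hc
  have hτy : ∀ τ : ↥(sqdfH A E), ssdAutRing E N (τ : E ≃ₐ[ℚ] E) y =
      ∑ i ∈ Finset.range (P.natDegree + 1), ssgfIota A E N (P.coeff i) *
        algebraMap E (modularFunctionFieldFullC E N) ((τ : E ≃ₐ[ℚ] E) (θ ^ i)) := by
    intro τ
    conv_lhs => rw [hP]
    rw [eval₂_eq_sum_range, map_sum]
    refine Finset.sum_congr rfl fun i _ => ?_
    rw [map_mul, sqdf_aut_iota A E N τ.2, ← map_pow, ssdAutRing_algebraMap]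
  have hsum : (m : modularFunctionFieldFullC E N) * y =
      ∑ τ : ↥(sqdfH A E), ssdAutRing E N (τ : E ≃ₐ[ℚ] E) y := by
    rw [Finset.sum_congr rfl fun (τ : ↥(sqdfH A E)) _ => hy τ.1 τ.2, Finset.sum_const,
      Finset.card_univ, ← hm, nsmul_eq_mul]
  have hmain : (m : modularFunctionFieldFullC E N) * y =
      ssgfIota A E N (∑ i ∈ Finset.range (P.natDegree + 1), P.coeff i *
        algebraMap (ssgfE0 A E) (modularFunctionFieldFullC (ssgfE0 A E) N) (c₀ i)) := by
    rw [hsum, Finset.sum_congr rfl fun τ _ => hτy τ, Finset.sum_comm, map_sum]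
    refine Finset.sum_congr rfl fun i _ => ?_
    rw [map_mul, ssgfIota_algebraMap, hc₀, map_sum, Finset.mul_sum]
  refine ⟨(m : modularFunctionFieldFullC (ssgfE0 A E) N)⁻¹ *
    ∑ i ∈ Finset.range (P.natDegree + 1), P.coeff i *
      algebraMap (ssgfE0 A E) (modularFunctionFieldFullC (ssgfE0 A E) N) (c₀ i), ?_⟩
  rw [map_mul, ← hmain, map_inv₀, map_natCast, ← mul_assoc, inv_mul_cancel₀, one_mul]
  exact Nat.cast_ne_zero.2 hm0

end Fermat.Agent.SQ
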