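import Mathlib
import Fermat.Agent.SQ.Descend.InertiaLift
import Fermat.Agent.SQ.Descend.Fixed

/-!
# Program Q (S36), (C4) descent : THE INERTIA FIELD IS UNRAMIFIED (prefix `sqdi`)

`𝔸 ⊂ ℚ̄` a valuation subring over `q`, `E / ℚ` finite normal, `E₀ = ssgfE0 𝔸 E = E^{I_𝔸}`.

* `sqdi_ram_one` (abstract, Mathlib only) : `E/ℚ` Galois number field, `P` a prime of `𝓞 E`,
  `K ⊆ E` the fixed field of `Ideal.inertia Gal(E/ℚ) P` ⟹ `e(P ∩ 𝓞 K | ℤ) = 1`
  [`card_inertia_eq_ramificationIdxIn` for `E/ℚ` and for `E/K`, multiplicativity of `e`];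
* `sqdi_exists_frac`, `sqdi_irreducible_of_ram_one` (abstract) : a valuation subring `V` of a number
  field `K` over `q` whose centre on `𝓞 K` has `e = 1` has `q` as a uniformiser;
* **`sqdi_irreducible`** : `Irreducible ((q : ℕ) : ↥(s18dVal 𝔸 (ssgfE0 𝔸 E)))`
  (uses `sqdi_inertia_lift` : the image of `I_𝔸` in `Gal(E/ℚ)` is the FULL inertia group of the
  centre of `𝔸`).
-/

set_option autoImplicit false
set_option linter.unusedSectionVars false
set_option linter.unusedVariables false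
set_option linter.style.haveILetI false

open NumberField
open scoped Pointwise

noncomputable section

namespace Fermat.Agent.SQ

/-! ### (b) the fixed field of the inertia group is unramified -/

theorem sqdi_ram_one (E K : Type*) [Field E] [NumberField E] [IsGalois ℚ E] [Field K]
    [NumberField K] [Algebra K E]
    (P : Ideal (𝓞 E)) [P.IsPrime]
    (hK : ∀ σ : E ≃ₐ[ℚ] E, (∀ k : K, σ (algebraMap K E k) = algebraMap K E k) ↔
      σ ∈ Ideal.inertia (E ≃ₐ[ℚ] E) P) :
    Ideal.ramificationIdx (P.under (𝓞 K)) ℤ = 1 := by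
  classical
  have hgal : IsGaloisGroup (fixingSubgroup (E ≃ₐ[ℚ] E) (Set.range (algebraMap K E))) K E :=
    IsGaloisGroup.of_isScalarTower (E ≃ₐ[ℚ] E) ℚ E K
  have hgal' : IsGaloisGroup (fixingSubgroup (E ≃ₐ[ℚ] E) (Set.range (algebraMap K E)))
      (𝓞 K) (𝓞 E) :=
    IsGaloisGroup.of_isFractionRing _ (𝓞 K) (𝓞 E) K E
  have hGI : fixingSubgroup (E ≃ₐ[ℚ] E) (Set.range (algebraMap K E)) =
      Ideal.inertia (E ≃ₐ[ℚ] E) P := by
    ext σ
    rw [← hK σ, mem_fixingSubgroup_iff]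
    constructor
    · intro h k
      exact h _ ⟨k, rfl⟩
    · rintro h _ ⟨k, rfl⟩
      exact h k
  have h1 := Ideal.card_inertia_eq_ramificationIdxIn (G := (E ≃ₐ[ℚ] E)) (P.under ℤ) P
  have h2 := Ideal.ramificationIdxIn_eq_ramificationIdx (P.under ℤ) P (E ≃ₐ[ℚ] E)
  have h3 := Ideal.card_inertia_eq_ramificationIdxIn
    (G := fixingSubgroup (E ≃ₐ[ℚ] E) (Set.range (algebraMap K E))) (P.under (𝓞 K)) P
  have h4 := Ideal.ramificationIdxIn_eq_ramificationIdx (P.under (𝓞 K)) P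
    (fixingSubgroup (E ≃ₐ[ℚ] E) (Set.range (algebraMap K E)))
  have h5 := Ideal.ramificationIdx_tower (R := ℤ) (P.under (𝓞 K)) P
  have htop : Ideal.inertia (fixingSubgroup (E ≃ₐ[ℚ] E) (Set.range (algebraMap K E))) P = ⊤ := by
    rw [eq_top_iff]
    intro σ _
    have hσ : (σ : E ≃ₐ[ℚ] E) ∈ Ideal.inertia (E ≃ₐ[ℚ] E) P := by
      rw [← hGI]; exact σ.2
    intro x
    exact hσ x
  have h6 : Nat.card (Ideal.inertia (fixingSubgroup (E ≃ₐ[ℚ] E) (Set.range (algebraMap K E))) P) =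
      Nat.card (Ideal.inertia (E ≃ₐ[ℚ] E) P) := by
    rw [htop, Subgroup.card_top, hGI]
  have hpos : 0 < Nat.card (Ideal.inertia (E ≃ₐ[ℚ] E) P) := Nat.card_pos
  rw [h6, h4] at h3
  rw [h2] at h1
  rw [← h1, ← h3] at h5
  have h7 : Ideal.ramificationIdx (P.under (𝓞 K)) ℤ * Nat.card (Ideal.inertia (E ≃ₐ[ℚ] E) P) =
      1 * Nat.card (Ideal.inertia (E ≃ₐ[ℚ] E) P) := by rw [one_mul]; exact h5.symm
  exact Nat.eq_of_mul_eq_mul_right hpos h7

/-! ### (c) `e = 1` ⟹ `q` is a uniformiser of the valuation subring -/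

/-- integers lie in every valuation subring -/
theorem sqdi_integer_mem {K : Type*} [Field K] [NumberField K] (V : ValuationSubring K)
    (x : 𝓞 K) : (x : K) ∈ V := by
  have h1 : IsIntegral ℤ (x : K) := RingOfIntegers.isIntegral_coe x
  have h2 : IsIntegral V (x : K) := h1.tower_top
  obtain ⟨y, hy⟩ := IsIntegrallyClosed.isIntegral_iff.mp h2
  rw [← hy]
  exact y.2

/-- fractions : every element of `V` is `a / s` with `a, s ∈ 𝓞 K`, `s ∉ p = 𝔪_V ∩ 𝓞 K`. -/
theorem sqdi_exists_frac {K : Type*} [Field K] [NumberField K] (V : ValuationSubring K)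
    (p : Ideal (𝓞 K)) [hpp : p.IsPrime] (hp0 : p ≠ ⊥)
    (hp : ∀ x : 𝓞 K, x ∈ p ↔ (x : K) ∈ V.nonunits) (x : K) (hx : x ∈ V) :
    ∃ a s : 𝓞 K, s ∉ p ∧ x * (s : K) = (a : K) := by
  haveI : IsDiscreteValuationRing (Localization.AtPrime p) :=
    IsLocalization.AtPrime.isDiscreteValuationRing_of_dedekind_domain (𝓞 K) hp0 _
  have hg : ∀ y : p.primeCompl, IsUnit (algebraMap (𝓞 K) K y) := by
    intro y
    refine IsUnit.mk0 _ ?_
    rw [Ne, map_eq_zero_iff _ (IsFractionRing.injective (𝓞 K) K)]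
    intro h0
    exact y.2 (h0 ▸ p.zero_mem)
  letI : Algebra (Localization.AtPrime p) K :=
    (IsLocalization.lift (M := p.primeCompl) (S := Localization.AtPrime p) hg).toAlgebra
  haveI : IsScalarTower (𝓞 K) (Localization.AtPrime p) K :=
    IsScalarTower.of_algebraMap_eq (fun a => (IsLocalization.lift_eq hg a).symm)
  haveI : IsFractionRing (Localization.AtPrime p) K :=
    IsFractionRing.isFractionRing_of_isDomain_of_isLocalization p.primeCompl
      (Localization.AtPrime p) K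
  have hfrac : ∀ (a : 𝓞 K) (s : p.primeCompl),
      algebraMap (Localization.AtPrime p) K (IsLocalization.mk' (Localization.AtPrime p) a s) *
        algebraMap (𝓞 K) K s = algebraMap (𝓞 K) K a := by
    intro a s
    have h1 := IsLocalization.mk'_spec (Localization.AtPrime p) a s
    have h2 := congrArg (algebraMap (Localization.AtPrime p) K) h1
    rwa [map_mul, ← IsScalarTower.algebraMap_apply, ← IsScalarTower.algebraMap_apply] at h2
  rcases ValuationRing.isInteger_or_isInteger (Localization.AtPrime p) x with ⟨r, hr⟩ | ⟨r, hr⟩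
  · obtain ⟨a, s, rfl⟩ := IsLocalization.exists_mk'_eq p.primeCompl r
    refine ⟨a, s, s.2, ?_⟩
    change x * algebraMap (𝓞 K) K s = algebraMap (𝓞 K) K a
    rw [← hr]
    exact hfrac a s
  · obtain ⟨a, s, rfl⟩ := IsLocalization.exists_mk'_eq p.primeCompl r
    have h1 : x⁻¹ * algebraMap (𝓞 K) K s = algebraMap (𝓞 K) K a := by
      rw [← hr]
      exact hfrac a s
    by_cases hx0 : x = 0
    · exact ⟨0, 1, fun h => hpp.ne_top ((Ideal.eq_top_iff_one _).mpr h),
        by rw [hx0, zero_mul]; simp⟩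
    have h2 : x * algebraMap (𝓞 K) K a = algebraMap (𝓞 K) K s := by
      rw [← h1, ← mul_assoc, mul_inv_cancel₀ hx0, one_mul]
    by_cases ha : a ∈ p
    · exfalso
      have h3 : ((s : 𝓞 K) : K) ∈ V.nonunits := by
        have h4 : ((s : 𝓞 K) : K) = x * (a : K) := h2.symm
        rw [h4]
        have h5 : (a : K) ∈ V.nonunits := (hp a).mp ha
        rw [ValuationSubring.mem_nonunits_iff_exists_mem_maximalIdeal] at h5 ⊢
        obtain ⟨ha1, ha2⟩ := h5
        refine ⟨V.mul_mem _ _ hx ha1, ?_⟩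
        have : (⟨x * (a : K), V.mul_mem _ _ hx ha1⟩ : V) = ⟨x, hx⟩ * ⟨(a : K), ha1⟩ := rfl
        rw [this]
        exact Ideal.mul_mem_left _ _ ha2
      exact s.2 ((hp s).mpr h3)
    · exact ⟨s, a, ha, h2⟩

/-- **(c)** a valuation subring of a number field whose centre on `𝓞 K` is unramified over `q`
has `q` as a uniformiser. -/
theorem sqdi_irreducible_of_ram_one {K : Type*} [Field K] [NumberField K] (V : ValuationSubring K)
    {q : ℕ} (hq : q.Prime) (hqV : ((q : ℕ) : K) ∈ V.nonunits)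
    (p : Ideal (𝓞 K)) [hpp : p.IsPrime]
    (hp : ∀ x : 𝓞 K, x ∈ p ↔ (x : K) ∈ V.nonunits)
    (he : Ideal.ramificationIdx p ℤ = 1) :
    Irreducible ((q : ℕ) : V) := by
  classical
  have hqp : ((q : ℕ) : 𝓞 K) ∈ p := by
    rw [hp]
    have : ((((q : ℕ) : 𝓞 K)) : K) = ((q : ℕ) : K) := by simp
    rw [this]; exact hqV
  have hq0 : ((q : ℕ) : 𝓞 K) ≠ 0 := by exact_mod_cast hq.ne_zero
  have hp0 : p ≠ ⊥ := by
    intro h
    rw [h, Ideal.mem_bot] at hqp
    exact hq0 hqp
  have hpmax : p.IsMaximal := Ideal.IsPrime.isMaximal inferInstance hp0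
  have hqprime : Prime (q : ℤ) := Nat.prime_iff_prime_int.mp hq
  have hlies : p.LiesOver (Ideal.span {(q : ℤ)}) := by
    rw [Ideal.liesOver_span_iff hpp.ne_top hqprime]
    simpa using hqp
  have hs0 : Ideal.span {(q : ℤ)} ≠ ⊥ := by
    rw [Ne, Ideal.span_singleton_eq_bot]
    exact hqprime.ne_zero
  have he' : Ideal.ramificationIdx' (Ideal.span {(q : ℤ)}) p = 1 := by
    rw [Ideal.ramificationIdx'_eq_ramificationIdx (Ideal.span {(q : ℤ)}) p hs0]
    exact he
  have hmap : Ideal.map (algebraMap ℤ (𝓞 K)) (Ideal.span {(q : ℤ)}) =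
      Ideal.span {((q : ℕ) : 𝓞 K)} := by
    rw [Ideal.map_span, Set.image_singleton]
    simp
  have hle : Ideal.map (algebraMap ℤ (𝓞 K)) (Ideal.span {(q : ℤ)}) ≤ p := by
    rw [hmap, Ideal.span_singleton_le_iff_mem]; exact hqp
  have hnot : ¬ ((q : ℕ) : 𝓞 K) ∈ p ^ 2 := by
    intro h
    have h1 : Ideal.map (algebraMap ℤ (𝓞 K)) (Ideal.span {(q : ℤ)}) ≤ p ^ 2 := by
      rw [hmap, Ideal.span_singleton_le_iff_mem]; exact h
    exact (Ideal.ramificationIdx'_ne_one_iff hle).mpr h1 he'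
  -- now the irreducibility
  have hcoe : (((q : ℕ) : V) : K) = ((q : ℕ) : K) := by simp
  refine ⟨?_, ?_⟩
  · -- not a unit
    intro hu
    have h1 : (((q : ℕ) : V) : K) ∈ V.nonunits := by rw [hcoe]; exact hqV
    rw [ValuationSubring.coe_mem_nonunits_iff, IsLocalRing.mem_maximalIdeal, mem_nonunits_iff] at h1
    exact h1 hu
  · intro x y hxy
    by_contra hcon
    push Not at hcon
    obtain ⟨hx, hy⟩ := hcon
    have hxm : (x : K) ∈ V.nonunits := by
      rw [ValuationSubring.coe_mem_nonunits_iff, IsLocalRing.mem_maximalIdeal, mem_nonunits_iff]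
      exact hx
    have hym : (y : K) ∈ V.nonunits := by
      rw [ValuationSubring.coe_mem_nonunits_iff, IsLocalRing.mem_maximalIdeal, mem_nonunits_iff]
      exact hy
    obtain ⟨a, s, hs, hxs⟩ := sqdi_exists_frac V p hp0 hp (x : K) x.2
    obtain ⟨b, t, ht, hyt⟩ := sqdi_exists_frac V p hp0 hp (y : K) y.2
    have hsV : ((s : 𝓞 K) : K) ∈ V := sqdi_integer_mem V s
    have htV : ((t : 𝓞 K) : K) ∈ V := sqdi_integer_mem V t
    have hmulmem : ∀ (u v : K), u ∈ V.nonunits → v ∈ V → u * v ∈ V.nonunits := by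
      intro u v hu hv
      rw [ValuationSubring.mem_nonunits_iff_exists_mem_maximalIdeal] at hu ⊢
      obtain ⟨hu1, hu2⟩ := hu
      refine ⟨V.mul_mem _ _ hu1 hv, ?_⟩
      have : (⟨u * v, V.mul_mem _ _ hu1 hv⟩ : V) = ⟨u, hu1⟩ * ⟨v, hv⟩ := rfl
      rw [this]
      exact Ideal.mul_mem_right _ _ hu2
    have ha : a ∈ p := by
      rw [hp, ← hxs]; exact hmulmem _ _ hxm hsV
    have hb : b ∈ p := by
      rw [hp, ← hyt]; exact hmulmem _ _ hym htV
    -- `q * (s t) = a b ∈ p²`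
    have hprod : ((q : ℕ) : 𝓞 K) * (s * t) = a * b := by
      apply RingOfIntegers.ext
      have h1 : ((q : ℕ) : K) = (x : K) * (y : K) := by
        rw [← hcoe, hxy]; rfl
      push_cast
      rw [h1]
      linear_combination ((y : K) * (t : K)) * hxs + (a : K) * hyt
    have hab : a * b ∈ p ^ 2 := by
      rw [pow_two]; exact Ideal.mul_mem_mul ha hb
    have hst : s * t ∉ p := fun h => (hpp.mem_or_mem h).elim hs ht
    obtain ⟨r, i, hi, hri⟩ := hpmax.exists_inv hst
    apply hnot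
    have h1 : ((q : ℕ) : 𝓞 K) = (((q : ℕ) : 𝓞 K) * (s * t)) * (r * (r * (s * t) + 2 * i)) +
        ((q : ℕ) : 𝓞 K) * (i * i) := by
      linear_combination (-((q : ℕ) : 𝓞 K) * (1 + (r * (s * t) + i))) * hri
    rw [h1, hprod]
    refine Ideal.add_mem _ (Ideal.mul_mem_right _ _ hab) (Ideal.mul_mem_left _ _ ?_)
    rw [pow_two]
    exact Ideal.mul_mem_mul hi hi

/-! ### the inertia field -/

open Fermat.Agent.SS Fermat.Agent.S18 Fermat.Agent.S55

local notation "Qb" => AlgebraicClosure ℚ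

/-- **THE INERTIA FIELD IS UNRAMIFIED** : `q` is a uniformiser of `𝔸 ∩ E₀`, `E₀ = E^{I_𝔸}`. -/
theorem sqdi_irreducible (A : ValuationSubring Qb) {q : ℕ} (hq : q.Prime)
    (hA : A.LiesOverPrime q) (E : IntermediateField ℚ Qb) [FiniteDimensional ℚ E] [Normal ℚ E] :
    Irreducible ((q : ℕ) : ↥(s18dVal A (ssgfE0 A E))) := by
  classical
  haveI : NumberField E := { to_charZero := inferInstance, to_finiteDimensional := inferInstance }
  haveI : NumberField (ssgfE0 A E) :=
    { to_charZero := inferInstance, to_finiteDimensional := inferInstance }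
  haveI : IsGalois ℚ E := { }
  letI : Algebra (ssgfE0 A E) E := (ssgfIncl A E).toAlgebra
  have halg : ∀ k : ssgfE0 A E, algebraMap (ssgfE0 A E) E k = ssgfIncl A E k := fun k => rfl
  haveI hPprime : (lgqiCenter E A).IsPrime := lgqiCenter_isPrime E A
  -- the Galois correspondence
  have hK : ∀ σ : E ≃ₐ[ℚ] E,
      (∀ k : ssgfE0 A E, σ (algebraMap (ssgfE0 A E) E k) = algebraMap (ssgfE0 A E) E k) ↔
      σ ∈ Ideal.inertia (E ≃ₐ[ℚ] E) (lgqiCenter E A) := by
    intro σ
    constructor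
    · intro h
      have hfix : σ ∈ (IntermediateField.fixedField (sqdfH A E)).fixingSubgroup := by
        rw [IntermediateField.mem_fixingSubgroup_iff]
        intro x hx
        obtain ⟨c₀, hc₀⟩ := sqdf_const_of_fixed A E x (fun τ hτ => hx ⟨τ, hτ⟩)
        rw [← hc₀]
        exact h c₀
      rw [IntermediateField.fixingSubgroup_fixedField] at hfix
      obtain ⟨τ, hτ, rfl⟩ := hfix
      exact lgqi_restrictNormal_mem_inertia E A τ hτ
    · intro h k
      obtain ⟨τ, hτ, rfl⟩ := sqdi_inertia_lift E A hq hA σ h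
      rw [halg]
      exact ssgf_restrict_incl A E hτ k
  have he := sqdi_ram_one E (ssgfE0 A E) (lgqiCenter E A) hK
  have hqV : ((q : ℕ) : ssgfE0 A E) ∈ (s18dVal A (ssgfE0 A E)).nonunits := by
    rw [sstr_mem_nonunits_dVal]
    have : ((((q : ℕ) : ssgfE0 A E)) : Qb) = ((q : ℕ) : Qb) := by simp
    rw [this]; exact hA
  refine sqdi_irreducible_of_ram_one (s18dVal A (ssgfE0 A E)) hq hqV
    ((lgqiCenter E A).under (𝓞 (ssgfE0 A E))) ?_ he
  intro x
  rw [sstr_mem_nonunits_dVal, Ideal.under_def, Ideal.mem_comap, mem_lgqiCenter_iff]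
  rfl

end Fermat.Agent.SQ
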