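import Mathlib

/-!
# Program Q (S36), leaf (C4) : HILBERT 90 for a finite group of field automorphisms (prefix `sqdh`)

`sqdh_hilbert90` : `G` finite, `ρ : G →* (F ≃+* F)` injective, `f : G → Fˣ`-valued `1`-cocycle
(`f (σ τ) = f σ · σ (f τ)`) ⟹ `f σ = b / σ b` for some `b ≠ 0`.  (Dedekind's independence of characters;
no `IsGalois` instance needed.)
-/

set_option autoImplicit false
set_option linter.unusedSectionVars false
set_option linter.unusedVariables false

noncomputable section

namespace Fermat.Agent.SQ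

/-- distinct field automorphisms are linearly independent -/
theorem sqdh_linearIndependent {G F : Type*} [Group G] [Field F] (ρ : G →* (F ≃+* F))
    (hρ : Function.Injective ρ) :
    LinearIndependent F (fun σ : G => ((ρ σ : F ≃+* F) : F → F)) := by
  have h := linearIndependent_monoidHom F F
  have hinj : Function.Injective (fun σ : G => ((ρ σ : F ≃+* F) : F →* F)) := by
    intro σ τ hστ
    apply hρ
    ext x
    exact DFunLike.congr_fun hστ x
  exact h.comp _ hinj

/-- **HILBERT 90.** -/
theorem sqdh_hilbert90 {G F : Type*} [Group G] [Finite G] [Field F] (ρ : G →* (F ≃+* F))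
    (hρ : Function.Injective ρ) (f : G → F) (hf0 : ∀ σ, f σ ≠ 0)
    (hf : ∀ σ τ, f (σ * τ) = f σ * ρ σ (f τ)) : ∃ b : F, b ≠ 0 ∧ ∀ σ, f σ * ρ σ b = b := by
  classical
  haveI : Fintype G := Fintype.ofFinite G
  have hli := sqdh_linearIndependent ρ hρ
  -- the Poincaré series is not identically zero
  have hne : ∃ c : F, ∑ σ : G, f σ * ρ σ c ≠ 0 := by
    by_contra hall
    push Not at hall
    have h0 : ∑ σ : G, f σ • ((ρ σ : F ≃+* F) : F → F) = 0 := by
      funext c
      simp only [Finset.sum_apply, Pi.smul_apply, smul_eq_mul, Pi.zero_apply]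
      exact hall c
    have h1 := (Fintype.linearIndependent_iff.1 hli) f h0 1
    exact hf0 1 h1
  obtain ⟨c, hc⟩ := hne
  refine ⟨∑ σ : G, f σ * ρ σ c, hc, fun τ => ?_⟩
  rw [map_sum, Finset.mul_sum]
  rw [← Equiv.sum_comp (Equiv.mulLeft τ) (fun σ => f σ * ρ σ c)]
  refine Finset.sum_congr rfl fun σ _ => ?_
  rw [Equiv.coe_mulLeft, hf τ σ, map_mul, map_mul, mul_assoc]
  rfl

end Fermat.Agent.SQ
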