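import Mathlib
import Fermat.Agent.S24.PlaceOrd

/-!
# Program Q (S36), leaf (C4) : a separable constant-field extension is UNRAMIFIED (prefix `sqdu`)

Abstract setting : `φ : F₀ →+* F`, places `R₀` of `F₀ / K₀` and `R` of `F / K` with
`ord_R (φ x) = r · ord_{R₀} x` (`r > 0`).  If `F = φ(F₀)[θ]` for a root `θ ∈ 𝒪_R` of a monic SEPARABLE
polynomial `p ∈ K₀[X]` with CONSTANT coefficients, then `r = 1`.

Proof : `B = 𝒪₀[θ]`; every `y = P(θ) ≠ 0`, `P ∈ 𝒪₀[X]`, has `r ∣ ord_R y`, by induction on `ord_R y` :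
reduce `P` and `p` modulo `𝔪₀`, `p̄ = μ ν` with `μ = gcd(P̄, p̄)`; `p̄` is squarefree, so `P̄` and `ν` are
coprime, `ν̃(θ)` is a unit of `𝒪_R` as soon as `y ∈ 𝔪_R`, and `ν̃(θ) y = φ(π₀) y''` with `y'' ∈ B`.
-/

set_option autoImplicit false
set_option linter.unusedSectionVars false
set_option linter.unusedVariables false

noncomputable section

namespace Fermat.Agent.SQ

open Polynomial AlgebraicCurve IsLocalRing Fermat.Agent.S24

section Unram

variable {K₀ F₀ K F : Type*} [Field K₀] [Field F₀] [Algebra K₀ F₀] [Field K] [Field F]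
  [Algebra K F]

/-- a polynomial over a discrete valuation ring whose reduction vanishes is divisible by the
uniformiser. -/
theorem sqdu_dvd_of_map_residue_eq_zero {O : Type*} [CommRing O] [IsDomain O]
    [IsDiscreteValuationRing O] {π : O} (hπ : Irreducible π) (P : O[X])
    (hP : P.map (residue O) = 0) : ∃ P₁ : O[X], P = C π * P₁ := by
  have h : C π ∣ P := by
    rw [Polynomial.C_dvd_iff_dvd_coeff]
    intro i
    have h1 : residue O (P.coeff i) = 0 := by
      have := congrArg (fun Q => Q.coeff i) hP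
      simpa [Polynomial.coeff_map] using this
    rw [residue_eq_zero_iff, hπ.maximalIdeal_eq, Ideal.mem_span_singleton] at h1
    exact h1
  obtain ⟨P₁, hP₁⟩ := h
  exact ⟨P₁, hP₁⟩

/-- a squarefree polynomial `p̄` and an arbitrary `P̄` over a field : `p̄ = μ ν`, `P̄ = μ Q` with
`P̄` and `ν` coprime. -/
theorem sqdu_coprime_cofactor {k : Type*} [Field k] (pb Pb : k[X]) (hs : pb.Separable) :
    ∃ ν Q a b : k[X], ν * Pb = pb * Q ∧ a * Pb + b * ν = 1 := by
  classical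
  have hpb0 : pb ≠ 0 := hs.ne_zero
  obtain ⟨μ, hμ⟩ : ∃ m, m = EuclideanDomain.gcd Pb pb := ⟨_, rfl⟩
  have hμ0 : μ ≠ 0 := by
    rw [hμ]
    intro h
    exact hpb0 ((EuclideanDomain.gcd_eq_zero_iff.1 h).2)
  obtain ⟨Q, hQ⟩ : μ ∣ Pb := hμ ▸ EuclideanDomain.gcd_dvd_left Pb pb
  obtain ⟨ν, hν⟩ : μ ∣ pb := hμ ▸ EuclideanDomain.gcd_dvd_right Pb pb
  have hbez : μ = EuclideanDomain.gcdA Pb pb * Pb + EuclideanDomain.gcdB Pb pb * pb := by
    rw [hμ, EuclideanDomain.gcd_eq_gcd_ab]; ring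
  have hcop1 : IsCoprime Q ν := by
    refine ⟨EuclideanDomain.gcdA Pb pb, EuclideanDomain.gcdB Pb pb, ?_⟩
    apply mul_left_cancel₀ hμ0
    calc μ * (EuclideanDomain.gcdA Pb pb * Q + EuclideanDomain.gcdB Pb pb * ν)
        = EuclideanDomain.gcdA Pb pb * (μ * Q) + EuclideanDomain.gcdB Pb pb * (μ * ν) := by ring
      _ = μ * 1 := by rw [← hQ, ← hν, mul_one]; exact hbez.symm
  have hcop2 : IsCoprime μ ν := by
    rw [hν] at hs
    exact hs.isCoprime
  have hcop : IsCoprime Pb ν := by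
    rw [hQ]
    exact hcop2.mul_left hcop1
  obtain ⟨a, b, hab⟩ := hcop
  exact ⟨ν, Q, a, b, by rw [hQ, hν]; ring, hab⟩

variable (φ : F₀ →+* F) (R : Place K F) (R₀ : Place K₀ F₀) (r : ℕ)
  (hord : ∀ x : F₀, R.ord (φ x) = r * R₀.ord x) (θ : F) (hθ : θ ∈ R.toValuationSubring)

include hord in
theorem sqdu_map_mem (a : R₀.toValuationSubring) : φ (a : F₀) ∈ R.toValuationSubring := by
  apply PlaceOrd.mem_of_ord_nonneg
  rw [hord]
  exact mul_nonneg (Int.natCast_nonneg r) (PlaceOrd.ord_nonneg_of_mem R₀ a.2)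

/-- `𝒪₀ → 𝒪_R` -/
def sqduBase : R₀.toValuationSubring →+* R.toValuationSubring where
  toFun a := ⟨φ (a : F₀), sqdu_map_mem φ R R₀ r hord a⟩
  map_one' := Subtype.ext (by simp)
  map_mul' a b := Subtype.ext (by simp)
  map_zero' := Subtype.ext (by simp)
  map_add' a b := Subtype.ext (by simp)

/-- evaluation at `θ` : `𝒪₀[X] → 𝒪_R` -/
def sqduEv : (R₀.toValuationSubring)[X] →+* R.toValuationSubring :=
  eval₂RingHom (sqduBase φ R R₀ r hord) ⟨θ, hθ⟩

theorem sqduEv_coe (P : (R₀.toValuationSubring)[X]) :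
    ((sqduEv φ R R₀ r hord θ hθ P : R.toValuationSubring) : F) =
      (P.map (R₀.toValuationSubring.subtype)).eval₂ φ θ := by
  unfold sqduEv
  rw [coe_eval₂RingHom]
  induction P using Polynomial.induction_on' with
  | add p q hp hq =>
    rw [eval₂_add, Polynomial.map_add, eval₂_add, ← hp, ← hq]
    rfl
  | monomial n a =>
    rw [eval₂_monomial, Polynomial.map_monomial, eval₂_monomial]
    rfl

theorem sqduEv_C (a : R₀.toValuationSubring) :
    ((sqduEv φ R R₀ r hord θ hθ (C a) : R.toValuationSubring) : F) = φ (a : F₀) := by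
  unfold sqduEv
  rw [coe_eval₂RingHom, eval₂_C]
  rfl

variable (p : K₀[X]) (hps : p.Separable)
  (hpθ : p.eval₂ (φ.comp (algebraMap K₀ F₀)) θ = 0)

include hpθ in
theorem sqduEv_p :
    sqduEv φ R R₀ r hord θ hθ (p.map (algebraMap K₀ R₀.toValuationSubring)) = 0 := by
  apply Subtype.ext
  rw [sqduEv_coe, Polynomial.map_map, eval₂_map]
  exact hpθ

include hps hpθ in
/-- THE KEY INDUCTION : `r ∣ ord_R (P(θ))` for every `P ∈ 𝒪₀[X]`. -/
theorem sqdu_key (hr : 0 < r) : ∀ n : ℕ, ∀ P : (R₀.toValuationSubring)[X],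
    sqduEv φ R R₀ r hord θ hθ P ≠ 0 →
    R.ord ((sqduEv φ R R₀ r hord θ hθ P : R.toValuationSubring) : F) = n → (r : ℤ) ∣ n := by
  intro n
  induction n using Nat.strong_induction_on with
  | _ n ih =>
  intro P hy hn
  rcases Nat.eq_zero_or_pos n with rfl | hnpos
  · simp
  obtain ⟨π, hπ⟩ := IsDiscreteValuationRing.exists_irreducible R₀.toValuationSubring
  obtain ⟨ev, hev⟩ : ∃ e, e = sqduEv φ R R₀ r hord θ hθ := ⟨_, rfl⟩
  rw [← hev] at hy hn
  obtain ⟨p₀, hp₀⟩ : ∃ q, q = p.map (algebraMap K₀ R₀.toValuationSubring) := ⟨_, rfl⟩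
  have hp₀ev : ev p₀ = 0 := by rw [hev, hp₀]; exact sqduEv_p φ R R₀ r hord θ hθ p hpθ
  obtain ⟨pb, hpb⟩ : ∃ q, q = p₀.map (residue R₀.toValuationSubring) := ⟨_, rfl⟩
  have hpb_sep : pb.Separable := by
    rw [hpb, hp₀, Polynomial.map_map]
    exact hps.map
  have hpb0 : pb ≠ 0 := hpb_sep.ne_zero
  obtain ⟨Pb, hPbdef⟩ : ∃ q, q = P.map (residue R₀.toValuationSubring) := ⟨_, rfl⟩
  obtain ⟨ν, Q, a, b, hνQ, hab⟩ := sqdu_coprime_cofactor pb Pb hpb_sep
  -- lifts
  have hsurj : Function.Surjective (Polynomial.map (residue R₀.toValuationSubring)) :=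
    Polynomial.map_surjective _ residue_surjective
  obtain ⟨νt, hνt⟩ := hsurj ν
  obtain ⟨Qt, hQt⟩ := hsurj Q
  obtain ⟨at', hat⟩ := hsurj a
  obtain ⟨bt, hbt⟩ := hsurj b
  obtain ⟨P2, hP2⟩ := sqdu_dvd_of_map_residue_eq_zero hπ (νt * P - p₀ * Qt) (by
    rw [Polynomial.map_sub, Polynomial.map_mul, Polynomial.map_mul, hνt, hQt, ← hPbdef, ← hpb,
      hνQ, sub_self])
  obtain ⟨P3, hP3⟩ := sqdu_dvd_of_map_residue_eq_zero hπ (at' * P + bt * νt - 1) (by
    rw [Polynomial.map_sub, Polynomial.map_add, Polynomial.map_mul, Polynomial.map_mul, hνt, hat,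
      hbt, ← hPbdef, Polynomial.map_one, hab, sub_self])
  have e1 : ev νt * ev P = ev (C π) * ev P2 := by
    have := congrArg ev hP2
    rw [map_sub, map_mul, map_mul, map_mul, hp₀ev, zero_mul, sub_zero] at this
    exact this
  have e2 : ev at' * ev P + ev bt * ev νt - 1 = ev (C π) * ev P3 := by
    have := congrArg ev hP3
    rw [map_sub, map_add, map_mul, map_mul, map_mul, map_one] at this
    exact this
  have hπord : R.ord ((ev (C π) : R.toValuationSubring) : F) = r := by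
    rw [hev, sqduEv_C, hord, Place.ord_coe_irreducible R₀ hπ, mul_one]
  have hπne : ev (C π) ≠ 0 := by
    intro h0
    rw [h0] at hπord
    simp at hπord
    omega
  have hym : ev P ∈ maximalIdeal R.toValuationSubring :=
    (PlaceOrd.ord_pos_iff_mem_maximalIdeal R hy).1 (by rw [hn]; exact_mod_cast hnpos)
  have hπm : ev (C π) ∈ maximalIdeal R.toValuationSubring :=
    (PlaceOrd.ord_pos_iff_mem_maximalIdeal R hπne).1 (by rw [hπord]; exact_mod_cast hr)
  have hs : IsUnit (ev νt) := by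
    by_contra hns
    have hsm : ev νt ∈ maximalIdeal R.toValuationSubring := hns
    have h1 : (1 : R.toValuationSubring) ∈ maximalIdeal R.toValuationSubring := by
      have h2 : (1 : R.toValuationSubring) =
          ev at' * ev P + ev bt * ev νt - ev (C π) * ev P3 := by
        rw [← e2]; ring
      rw [h2]
      exact Ideal.sub_mem _ (Ideal.add_mem _ (Ideal.mul_mem_left _ _ hym)
        (Ideal.mul_mem_left _ _ hsm)) (Ideal.mul_mem_right _ _ hπm)
    exact (Ideal.ne_top_iff_one _).1 (maximalIdeal.isMaximal _).ne_top h1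
  have hP2ne : ev P2 ≠ 0 := by
    intro h0
    rw [h0, mul_zero] at e1
    exact hy ((hs.mul_right_eq_zero).1 e1)
  have hcoe : ∀ z : R.toValuationSubring, z ≠ 0 → (z : F) ≠ 0 := fun z hz h =>
    hz (Subtype.ext h)
  have hord2 : R.ord ((ev P2 : R.toValuationSubring) : F) = (n : ℤ) - r := by
    have h3 := congrArg (fun z : R.toValuationSubring => R.ord (z : F)) e1
    simp only [MulMemClass.coe_mul] at h3
    have hsne : ev νt ≠ 0 := hs.ne_zero
    obtain ⟨u, hu⟩ := hs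
    rw [R.ord_mul (hcoe _ hsne) (hcoe _ hy), R.ord_mul (hcoe _ hπne) (hcoe _ hP2ne), hn,
      hπord, ← hu, R.ord_coe_unit u] at h3
    omega
  have hge : 0 ≤ R.ord ((ev P2 : R.toValuationSubring) : F) :=
    PlaceOrd.ord_nonneg_of_mem R (ev P2).2
  obtain ⟨n', hn'⟩ : ∃ n' : ℕ, (n' : ℤ) = (n : ℤ) - r := ⟨n - r, by omega⟩
  have h4 := ih n' (by omega) P2 (by rw [← hev]; exact hP2ne) (by rw [← hev, hord2, hn'])
  have h5 : (r : ℤ) ∣ (n : ℤ) - r := hn' ▸ h4
  have h6 := dvd_add h5 (dvd_refl (r : ℤ))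
  rwa [sub_add_cancel] at h6

/-- clearing denominators -/
theorem sqdu_clear_denominators {π : R₀.toValuationSubring} (hπ : Irreducible π)
    (P : F₀[X]) : ∃ (m : ℕ) (P' : (R₀.toValuationSubring)[X]),
      P'.map (R₀.toValuationSubring.subtype) = C ((π : F₀) ^ m) * P := by
  classical
  obtain ⟨m, hm⟩ : ∃ m : ℕ, ∀ i ∈ P.support, -R₀.ord (P.coeff i) ≤ m := by
    refine ⟨P.support.sup fun i => (-R₀.ord (P.coeff i)).toNat, fun i hi => ?_⟩
    have h1 := Finset.le_sup (f := fun i => (-R₀.ord (P.coeff i)).toNat) hi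
    have h2 : -R₀.ord (P.coeff i) ≤ ((-R₀.ord (P.coeff i)).toNat : ℤ) := Int.self_le_toNat _
    exact h2.trans (by exact_mod_cast h1)
  have hmem : C ((π : F₀) ^ m) * P ∈ Polynomial.lifts (R₀.toValuationSubring.subtype) := by
    rw [Polynomial.lifts_iff_coeff_lifts]
    intro i
    rw [Polynomial.coeff_C_mul]
    by_cases hi : i ∈ P.support
    · have hc : P.coeff i ≠ 0 := Polynomial.mem_support_iff.1 hi
      have hπ0 : (π : F₀) ≠ 0 := PlaceOrd.coe_irreducible_ne_zero R₀ hπ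
      have h3 : (π : F₀) ^ m * P.coeff i ∈ R₀.toValuationSubring := by
        apply PlaceOrd.mem_of_ord_nonneg
        rw [R₀.ord_mul (pow_ne_zero m hπ0) hc, ← zpow_natCast, R₀.ord_zpow,
          R₀.ord_coe_irreducible hπ]
        have := hm i hi
        omega
      exact ⟨⟨_, h3⟩, rfl⟩
    · rw [Polynomial.notMem_support_iff.1 hi, mul_zero]
      exact ⟨0, by simp⟩
  obtain ⟨P', hP'⟩ := hmem
  exact ⟨m, P', hP'⟩

include hord hθ hps hpθ in
/-- **A SEPARABLE CONSTANT-FIELD EXTENSION IS UNRAMIFIED.** -/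
theorem sqdu_unram (hr : 0 < r) (hgen : ∀ y : F, ∃ P : F₀[X], y = P.eval₂ φ θ) : r = 1 := by
  obtain ⟨ϖ, hϖ⟩ := IsDiscreteValuationRing.exists_irreducible R.toValuationSubring
  obtain ⟨π, hπ⟩ := IsDiscreteValuationRing.exists_irreducible R₀.toValuationSubring
  obtain ⟨P, hP⟩ := hgen (ϖ : F)
  obtain ⟨m, P', hP'⟩ := sqdu_clear_denominators R₀ hπ P
  have hϖ0 : (ϖ : F) ≠ 0 := PlaceOrd.coe_irreducible_ne_zero R hϖ
  have hπ0 : (π : F₀) ≠ 0 := PlaceOrd.coe_irreducible_ne_zero R₀ hπ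
  have hφπ0 : φ (π : F₀) ≠ 0 := (map_ne_zero φ).2 hπ0
  have hval : ((sqduEv φ R R₀ r hord θ hθ P' : R.toValuationSubring) : F) =
      φ (π : F₀) ^ m * (ϖ : F) := by
    rw [sqduEv_coe, hP', eval₂_mul, eval₂_C, map_pow, ← hP]
  have hne : sqduEv φ R R₀ r hord θ hθ P' ≠ 0 := by
    intro h0
    rw [h0] at hval
    exact mul_ne_zero (pow_ne_zero m hφπ0) hϖ0 hval.symm
  have hordv : R.ord ((sqduEv φ R R₀ r hord θ hθ P' : R.toValuationSubring) : F) =
      ((m * r + 1 : ℕ) : ℤ) := by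
    rw [hval, R.ord_mul (pow_ne_zero m hφπ0) hϖ0, ← zpow_natCast, R.ord_zpow, hord,
      R₀.ord_coe_irreducible hπ, R.ord_coe_irreducible hϖ]
    push_cast
    ring
  have hdvd := sqdu_key φ R R₀ r hord θ hθ p hps hpθ hr (m * r + 1) P' hne hordv
  have h1 : (r : ℤ) ∣ 1 := by
    have h2 : (r : ℤ) ∣ (m : ℤ) * r := dvd_mul_left _ _
    have h3 : ((m * r + 1 : ℕ) : ℤ) = (m : ℤ) * r + 1 := by push_cast; ring
    rw [h3] at hdvd
    exact (dvd_add_right h2).1 hdvd
  have h4 : r ∣ 1 := by exact_mod_cast h1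
  exact Nat.dvd_one.1 h4

end Unram

end Fermat.Agent.SQ
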