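import Mathlib
import Fermat.Agent.SQ.Descend.Unram
import Fermat.Agent.SQ.Descend.Fixed
import Fermat.Agent.SS.Dict.Place

/-!
# Program Q (S36), leaf (C4) : places of `F_{E₀}(N)` and of `F_E(N)` (prefix `sqdp`)

`E₀ = ssgfE0 𝔸 E`, `ι = ssgfIota 𝔸 E N`.  The constant-field extension `F_E(N) / ι F_{E₀}(N)` is
UNRAMIFIED :

* `sqdp_restrict` : the restriction `R₀` of a place `R` of `F_E(N)` has `ord_R (ι x) = ord_{R₀} x`;
* `sqdp_exists_above` : every place `R₀` of `F_{E₀}(N)` is such a restriction.
-/

set_option autoImplicit false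
set_option linter.unusedSectionVars false
set_option linter.unusedVariables false
set_option linter.style.haveILetI false
set_option synthInstance.maxHeartbeats 400000

noncomputable section

namespace Fermat.Agent.SQ

open Polynomial ModularCurve AlgebraicCurve IntermediateField Fermat.Agent.S18 Fermat.Agent.SS
  Fermat.Agent.S24

local notation "Qb" => AlgebraicClosure ℚ

variable (A : ValuationSubring Qb) (E : IntermediateField ℚ Qb) (N : ℕ) [NeZero N]

/-- `E₀`-algebra structure on `F_E(N)` through `E`. -/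
abbrev sqdpAlg : Algebra (ssgfE0 A E) (modularFunctionFieldFullC E N) :=
  ((algebraMap E (modularFunctionFieldFullC E N)).comp (ssgfIncl A E)).toAlgebra

/-- a place of `F_E(N) / E` is a place over `E₀` with the same valuation ring. -/
def sqdpPlace (R : Place E (modularFunctionFieldFullC E N)) :
    @Place (ssgfE0 A E) (modularFunctionFieldFullC E N) _ _ (sqdpAlg A E N) :=
  letI := sqdpAlg A E N
  { toValuationSubring := R.toValuationSubring
    algebraMap_mem' := fun a => R.algebraMap_mem' (ssgfIncl A E a)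
    ne_top' := R.ne_top'
    isPrincipalIdealRing' := R.isPrincipalIdealRing' }

theorem sqdpPlace_ord (R : Place E (modularFunctionFieldFullC E N))
    (x : modularFunctionFieldFullC E N) :
    letI := sqdpAlg A E N
    (sqdpPlace A E N R).ord x = R.ord x := rfl

/-- `F_E(N)` is algebraic over `ι F_{E₀}(N)`. -/
theorem sqdp_isAlgebraic [FiniteDimensional ℚ E] :
    letI : Algebra (modularFunctionFieldFullC (ssgfE0 A E) N) (modularFunctionFieldFullC E N) :=
      (ssgfIota A E N).toAlgebra
    Algebra.IsAlgebraic (modularFunctionFieldFullC (ssgfE0 A E) N)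
      (modularFunctionFieldFullC E N) := by
  letI : Algebra (modularFunctionFieldFullC (ssgfE0 A E) N) (modularFunctionFieldFullC E N) :=
    (ssgfIota A E N).toAlgebra
  obtain ⟨θ, p, hpm, -, hpθ, hθ⟩ := sqdf_exists_primitive A E
  have hint : IsIntegral (modularFunctionFieldFullC (ssgfE0 A E) N)
      (algebraMap E (modularFunctionFieldFullC E N) θ) := by
    refine ⟨p.map (algebraMap (ssgfE0 A E) (modularFunctionFieldFullC (ssgfE0 A E) N)),
      hpm.map _, ?_⟩
    rw [eval₂_map]
    have hcomp := sqdf_comp_eq A E N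
    have h1 : (algebraMap (modularFunctionFieldFullC (ssgfE0 A E) N)
        (modularFunctionFieldFullC E N)).comp
          (algebraMap (ssgfE0 A E) (modularFunctionFieldFullC (ssgfE0 A E) N)) =
        (algebraMap E (modularFunctionFieldFullC E N)).comp (ssgfIncl A E) := hcomp
    rw [h1, ← Polynomial.hom_eval₂, hpθ, map_zero]
  refine ⟨fun y => ?_⟩
  obtain ⟨P, hP⟩ := sqdf_gen A E N θ p hpm hpθ hθ y
  have hy : y = aeval (algebraMap E (modularFunctionFieldFullC E N) θ) P := by
    rw [hP]; exact (aeval_def _ P).symm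
  rw [hy]
  have h1 : aeval (algebraMap E (modularFunctionFieldFullC E N) θ) P ∈
      Algebra.adjoin (modularFunctionFieldFullC (ssgfE0 A E) N)
        {algebraMap E (modularFunctionFieldFullC E N) θ} := aeval_mem_adjoin_singleton _ _
  have h2 : Algebra.adjoin (modularFunctionFieldFullC (ssgfE0 A E) N)
      {algebraMap E (modularFunctionFieldFullC E N) θ} ≤
      integralClosure (modularFunctionFieldFullC (ssgfE0 A E) N)
        (modularFunctionFieldFullC E N) := by
    rw [Algebra.adjoin_le_iff]
    rintro z rfl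
    exact hint
  exact (h2 h1 : IsIntegral _ _).isAlgebraic

/-- **RESTRICTION, UNRAMIFIED** : the restriction `R₀` of a place `R` of `F_E(N)` to `F_{E₀}(N)`
satisfies `ord_R (ι x) = ord_{R₀} x`. -/
theorem sqdp_restrict [FiniteDimensional ℚ E] (R : Place E (modularFunctionFieldFullC E N)) :
    ∃ R₀ : Place (ssgfE0 A E) (modularFunctionFieldFullC (ssgfE0 A E) N),
      R₀.toValuationSubring = R.toValuationSubring.comap (ssgfIota A E N) ∧
      ∀ x : modularFunctionFieldFullC (ssgfE0 A E) N, R.ord (ssgfIota A E N x) = R₀.ord x := by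
  letI i1 : Algebra (modularFunctionFieldFullC (ssgfE0 A E) N) (modularFunctionFieldFullC E N) :=
    (ssgfIota A E N).toAlgebra
  letI i2 : Algebra (ssgfE0 A E) (modularFunctionFieldFullC E N) := sqdpAlg A E N
  haveI : IsScalarTower (ssgfE0 A E) (modularFunctionFieldFullC (ssgfE0 A E) N)
      (modularFunctionFieldFullC E N) :=
    IsScalarTower.of_algebraMap_eq fun c => (ssgfIota_algebraMap A E N c).symm
  haveI : Algebra.IsAlgebraic (modularFunctionFieldFullC (ssgfE0 A E) N)
      (modularFunctionFieldFullC E N) := sqdp_isAlgebraic A E N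
  obtain ⟨R₀, r, hr, hR₀, hord⟩ := s18r_place_restrict (K := ssgfE0 A E)
    (F₀ := modularFunctionFieldFullC (ssgfE0 A E) N) (F₁ := modularFunctionFieldFullC E N)
    (ssd_weak_place (ssgfE0 A E) N) (sqdpPlace A E N R)
  have hord' : ∀ x : modularFunctionFieldFullC (ssgfE0 A E) N,
      R.ord (ssgfIota A E N x) = r * R₀.ord x := fun x => hord x
  obtain ⟨θ, p, hpm, hps, hpθ, hθ⟩ := sqdf_exists_primitive A E
  have hpθ' : p.eval₂ ((ssgfIota A E N).comp
      (algebraMap (ssgfE0 A E) (modularFunctionFieldFullC (ssgfE0 A E) N)))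
      (algebraMap E (modularFunctionFieldFullC E N) θ) = 0 := by
    rw [sqdf_comp_eq, ← Polynomial.hom_eval₂, hpθ, map_zero]
  have hr1 : r = 1 := sqdu_unram (ssgfIota A E N) R R₀ r hord'
    (algebraMap E (modularFunctionFieldFullC E N) θ) (R.algebraMap_mem' θ) p hps hpθ' hr
    (fun y => sqdf_gen A E N θ p hpm hpθ hθ y)
  refine ⟨R₀, hR₀, fun x => ?_⟩
  rw [hord' x, hr1, Nat.cast_one, one_mul]

/-- **LYING OVER** : every place of `F_{E₀}(N)` is the restriction of a place of `F_E(N)`, with
the same order function. -/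
theorem sqdp_exists_above [FiniteDimensional ℚ E]
    (R₀ : Place (ssgfE0 A E) (modularFunctionFieldFullC (ssgfE0 A E) N)) :
    ∃ R : Place E (modularFunctionFieldFullC E N),
      ∀ x : modularFunctionFieldFullC (ssgfE0 A E) N, R.ord (ssgfIota A E N x) = R₀.ord x := by
  obtain ⟨W, hW⟩ := s18r_exists_extension (ssgfIota A E N) R₀.toValuationSubring
  have hWp : S18IsPlace E W := by
    refine ⟨fun htop => R₀.ne_top' ?_, fun c => ?_⟩
    · rw [← hW, htop]
      exact SetLike.ext fun x => ⟨fun _ => ValuationSubring.mem_top _, fun _ => by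
        rw [ValuationSubring.mem_comap]; exact ValuationSubring.mem_top _⟩
    · -- `c` is integral over `ℚ`
      haveI : Algebra.IsAlgebraic ℚ E := Algebra.IsAlgebraic.of_finite ℚ E
      obtain ⟨Q, hQm, hQx⟩ := (Algebra.IsAlgebraic.isAlgebraic (R := ℚ) c).isIntegral
      refine s18r_mem_of_monic_root W
        (algebraMap ℚ (modularFunctionFieldFullC E N)) (fun a => ?_)
        (algebraMap E (modularFunctionFieldFullC E N) c) Q hQm ?_
      · have h1 : algebraMap ℚ (modularFunctionFieldFullC E N) a =
            ssgfIota A E N (algebraMap (ssgfE0 A E) (modularFunctionFieldFullC (ssgfE0 A E) N)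
              (algebraMap ℚ (ssgfE0 A E) a)) := by
          rw [ssgfIota_algebraMap, IsScalarTower.algebraMap_apply ℚ E (modularFunctionFieldFullC E N)]
          rfl
        rw [h1, ← ValuationSubring.mem_comap, hW]
        exact R₀.algebraMap_mem' _
      · rw [IsScalarTower.algebraMap_eq ℚ E (modularFunctionFieldFullC E N),
          ← Polynomial.hom_eval₂]
        rw [hQx, map_zero]
  obtain ⟨R, hR⟩ := ssd_weak_place E N W hWp
  obtain ⟨R₁, hR₁, hord⟩ := sqdp_restrict A E N R
  have hRR : R₁ = R₀ := Place.ext (by rw [hR₁, hR, hW])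
  exact ⟨R, fun x => by rw [hord x, hRR]⟩

end Fermat.Agent.SQ
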