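import Mathlib
import Fermat.Agent.SQ.Descend.Hilbert
import Fermat.Agent.SQ.Descend.Place
import Fermat.Agent.SS.Dict.Descend
import Fermat.Agent.SS.Top.Kum

/-!
# Program Q (S36), leaf (C4) : DESCENT OF AN INERTIA-FIXED TORSION CLASS TO THE INERTIA FIELD
(prefix `sqd`)

`𝔸 ⊂ ℚ̄` a valuation subring, `I` its inertia group, `E / ℚ` finite normal, `E₀ = E^I = ssgfE0 𝔸 E`.

* `sqd_descend_E` : `g ∈ F_E(N)ˣ` with `τ g / g ∈ (F_E(N)ˣ)ⁿ` for every `τ` in the image `H` of `I` in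
  `Gal(E/ℚ)` ⟹ `lc(g)⁻¹ g bⁿ ∈ ι F_{E₀}(N)` for some `b ∈ F_E(N)ˣ` (normalise the `n`-th roots by the
  leading coefficient at `∞` : a `1`-cocycle; Hilbert 90);
* `sqd_descend` : `g ∈ F_ℚ̄(N)ˣ`, `n ∣ ord_R g` at every place, `σ g / g ∈ (F_ℚ̄(N)ˣ)ⁿ` for every
  `σ ∈ I` (i.e. the class of `div(g)/n` is `I`-fixed) ⟹ for every big enough finite normal `E` there is
  `f ∈ F_{E₀}(N)ˣ` with `f = c g bⁿ` over `ℚ̄` and `n ∣ ord_{R₀} f` at EVERY place `R₀` of `F_{E₀}(N)`.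
-/

set_option autoImplicit false
set_option linter.unusedSectionVars false
set_option linter.unusedVariables false
set_option linter.style.haveILetI false
set_option synthInstance.maxHeartbeats 400000

noncomputable section

namespace Fermat.Agent.SQ

open Polynomial ModularCurve AlgebraicCurve IntermediateField Fermat.Agent.S18 Fermat.Agent.SS
  Fermat.Agent.S24

local notation "Qb" => AlgebraicClosure ℚ

/-! ### roots of unity with leading coefficient `1` -/

/-- an `n`-th root of unity in `k((q))` with leading coefficient `1` is `1`. -/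
theorem sqd_eq_one_of_pow_eq_one {k : Type*} [Field k] [CharZero k] (ρ : LaurentSeries k) (n : ℕ)
    (hn : n ≠ 0) (hρ : ρ ^ n = 1) (hlc : ρ.leadingCoeff = 1) : ρ = 1 := by
  have hord : ρ.order = 0 := by
    have h := congrArg HahnSeries.order hρ
    rw [HahnSeries.order_pow, HahnSeries.order_one] at h
    rcases smul_eq_zero.1 h with h | h
    · exact absurd h hn
    · exact h
  have hcoeff : ∀ i : ℕ, (ρ ^ i).coeff 0 = 1 := by
    intro i
    have h1 : (ρ ^ i).order = 0 := by rw [HahnSeries.order_pow, hord, smul_zero]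
    have h2 : (ρ ^ i).leadingCoeff = 1 := by
      induction i with
      | zero => simp
      | succ j ih =>
        rw [pow_succ, HahnSeries.leadingCoeff_mul,
          ih (by rw [HahnSeries.order_pow, hord, smul_zero]), hlc, one_mul]
    rw [HahnSeries.leadingCoeff_eq, h1] at h2
    exact h2
  have hS : (∑ i ∈ Finset.range n, ρ ^ i) ≠ 0 := by
    intro h0
    have h3 := congrArg (fun z : LaurentSeries k => z.coeff 0) h0
    simp only [HahnSeries.coeff_sum, hcoeff, Finset.sum_const, Finset.card_range, nsmul_eq_mul,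
      mul_one, HahnSeries.coeff_zero] at h3
    exact hn (Nat.cast_eq_zero.1 h3)
  have h4 := mul_geom_sum ρ n
  rw [hρ, sub_self] at h4
  rcases mul_eq_zero.1 h4 with h | h
  · exact sub_eq_zero.1 h
  · exact absurd h hS

variable (A : ValuationSubring Qb) (E : IntermediateField ℚ Qb) (N : ℕ) [NeZero N]

/-! ### the leading coefficient at `∞` -/

/-- the leading coefficient of the `q`-expansion -/
def sqdLc (y : modularFunctionFieldFullC E N) : E := (y : LaurentSeries E).leadingCoeff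

theorem sqdLc_mul (x y : modularFunctionFieldFullC E N) :
    sqdLc E N (x * y) = sqdLc E N x * sqdLc E N y :=
  HahnSeries.leadingCoeff_mul _ _

theorem sqdLc_one : sqdLc E N 1 = 1 := HahnSeries.leadingCoeff_one

theorem sqdLc_ne_zero {y : modularFunctionFieldFullC E N} (hy : y ≠ 0) : sqdLc E N y ≠ 0 :=
  HahnSeries.leadingCoeff_ne_zero.2 fun h => hy (Subtype.ext h)

theorem sqdLc_pow (x : modularFunctionFieldFullC E N) (n : ℕ) :
    sqdLc E N (x ^ n) = sqdLc E N x ^ n := by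
  induction n with
  | zero => rw [pow_zero, pow_zero, sqdLc_one]
  | succ m ih => rw [pow_succ, sqdLc_mul, ih, pow_succ]

theorem sqdLc_algebraMap (c : E) :
    sqdLc E N (algebraMap E (modularFunctionFieldFullC E N) c) = c := by
  show (algebraMap E (LaurentSeries E) c).leadingCoeff = c
  rw [algebraMap_laurentSeries_eq_single]
  exact HahnSeries.leadingCoeff_of_single

theorem sqdLc_aut (τ : E ≃ₐ[ℚ] E) (y : modularFunctionFieldFullC E N) :
    sqdLc E N (ssdAutRing E N τ y) = τ (sqdLc E N y) :=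
  s18dd_leadingCoeff_coeffMap (τ : E →+* E) (y : LaurentSeries E)

/-- the normalisation `y / lc(y)` -/
def sqdNorm (y : modularFunctionFieldFullC E N) : modularFunctionFieldFullC E N :=
  algebraMap E (modularFunctionFieldFullC E N) (sqdLc E N y)⁻¹ * y

theorem sqdLc_norm {y : modularFunctionFieldFullC E N} (hy : y ≠ 0) :
    sqdLc E N (sqdNorm E N y) = 1 := by
  unfold sqdNorm
  rw [sqdLc_mul, sqdLc_algebraMap, inv_mul_cancel₀ (sqdLc_ne_zero E N hy)]

theorem sqdNorm_ne_zero {y : modularFunctionFieldFullC E N} (hy : y ≠ 0) :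
    sqdNorm E N y ≠ 0 := by
  unfold sqdNorm
  refine mul_ne_zero ?_ hy
  rw [Ne, map_eq_zero]
  exact inv_ne_zero (sqdLc_ne_zero E N hy)

/-- two elements with the same `n`-th power and leading coefficient `1` are equal. -/
theorem sqd_eq_of_pow_eq {x y : modularFunctionFieldFullC E N} (n : ℕ) (hn : n ≠ 0)
    (hy : y ≠ 0) (h : x ^ n = y ^ n) (hx1 : sqdLc E N x = 1) (hy1 : sqdLc E N y = 1) : x = y := by
  have h1 : (x / y) ^ n = 1 := by rw [div_pow, h, div_self (pow_ne_zero n hy)]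
  have h2 : sqdLc E N (x / y) = 1 := by
    have h3 : sqdLc E N (x / y) * sqdLc E N y = sqdLc E N x := by
      rw [← sqdLc_mul, div_mul_cancel₀ _ hy]
    rw [hx1, hy1, mul_one] at h3
    exact h3
  have h4 : ((x / y : modularFunctionFieldFullC E N) : LaurentSeries E) = 1 :=
    sqd_eq_one_of_pow_eq_one _ n hn (by
      have := congrArg (fun z : modularFunctionFieldFullC E N => (z : LaurentSeries E)) h1
      simpa using this) h2
  have h5 : x / y = 1 := Subtype.ext h4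
  rwa [div_eq_one_iff_eq hy] at h5

/-! ### the descent inside `F_E(N)` -/

/-- the action of the inertia group `H ⊂ Gal(E/ℚ)` on `F_E(N)` -/
def sqdRho [Normal ℚ E] :
    ↥(sqdfH A E) →* (modularFunctionFieldFullC E N ≃+* modularFunctionFieldFullC E N) where
  toFun τ := ssdAutRing E N (τ : E ≃ₐ[ℚ] E)
  map_one' := by
    have h := congrArg SemilinearAut.toRingAut (map_one (ssdAut E N))
    exact h
  map_mul' σ τ := by
    have h := congrArg SemilinearAut.toRingAut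
      (map_mul (ssdAut E N) (σ : E ≃ₐ[ℚ] E) (τ : E ≃ₐ[ℚ] E))
    exact h

theorem sqdRho_apply [Normal ℚ E] (τ : ↥(sqdfH A E)) (y : modularFunctionFieldFullC E N) :
    sqdRho A E N τ y = ssdAutRing E N (τ : E ≃ₐ[ℚ] E) y := rfl

theorem sqdRho_injective [Normal ℚ E] : Function.Injective (sqdRho A E N) := by
  intro σ τ h
  apply Subtype.ext
  apply AlgEquiv.ext
  intro c
  have h1 := congrArg (fun f : modularFunctionFieldFullC E N ≃+* modularFunctionFieldFullC E N =>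
    f (algebraMap E (modularFunctionFieldFullC E N) c)) h
  simp only [sqdRho_apply, ssdAutRing_algebraMap] at h1
  exact (algebraMap E (modularFunctionFieldFullC E N)).injective h1

set_option maxHeartbeats 1000000 in
/-- **THE DESCENT INSIDE `F_E(N)`** (cocycle normalised at `∞` + Hilbert 90 + fixed field). -/
theorem sqd_descend_E [FiniteDimensional ℚ E] [Normal ℚ E] (n : ℕ) (hn : n ≠ 0)
    (g : modularFunctionFieldFullC E N) (hg : g ≠ 0)
    (hfix : ∀ τ ∈ sqdfH A E, ∃ h : modularFunctionFieldFullC E N,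
      ssdAutRing E N τ g = g * h ^ n) :
    ∃ (f : modularFunctionFieldFullC (ssgfE0 A E) N) (b : modularFunctionFieldFullC E N),
      b ≠ 0 ∧ ssgfIota A E N f = sqdNorm E N g * b ^ n := by
  classical
  -- the normalised function
  obtain ⟨g₁, hg₁⟩ : ∃ x, x = sqdNorm E N g := ⟨_, rfl⟩
  have hg₁0 : g₁ ≠ 0 := hg₁ ▸ sqdNorm_ne_zero E N hg
  have hg₁lc : sqdLc E N g₁ = 1 := hg₁ ▸ sqdLc_norm E N hg
  -- the roots
  have hfix' : ∀ τ : ↥(sqdfH A E), ∃ h : modularFunctionFieldFullC E N,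
      ssdAutRing E N (τ : E ≃ₐ[ℚ] E) g = g * h ^ n := fun τ => hfix τ.1 τ.2
  choose h hh using hfix'
  have hh0 : ∀ τ, h τ ≠ 0 := by
    intro τ h0
    have h1 := hh τ
    rw [h0, zero_pow hn, mul_zero] at h1
    exact hg ((map_eq_zero_iff _ (ssdAutRing E N (τ : E ≃ₐ[ℚ] E)).injective).1 h1)
  -- the normalised roots
  have hkey : ∀ τ : ↥(sqdfH A E),
      ssdAutRing E N (τ : E ≃ₐ[ℚ] E) g₁ = g₁ * sqdNorm E N (h τ) ^ n := by
    intro τ
    have hlc : (τ : E ≃ₐ[ℚ] E) (sqdLc E N g) = sqdLc E N g * sqdLc E N (h τ) ^ n := by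
      rw [← sqdLc_aut, hh τ, sqdLc_mul, sqdLc_pow]
    have hc0 : sqdLc E N g ≠ 0 := sqdLc_ne_zero E N hg
    have hd0 : sqdLc E N (h τ) ≠ 0 := sqdLc_ne_zero E N (hh0 τ)
    rw [hg₁]
    unfold sqdNorm
    rw [map_mul, ssdAutRing_algebraMap, hh τ, map_inv₀ ((τ : E ≃ₐ[ℚ] E)), hlc]
    simp only [map_inv₀, map_mul, map_pow]
    have ha0 : algebraMap E (modularFunctionFieldFullC E N) (sqdLc E N g) ≠ 0 := by
      rw [Ne, map_eq_zero]; exact hc0
    have hb0 : algebraMap E (modularFunctionFieldFullC E N) (sqdLc E N (h τ)) ≠ 0 := by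
      rw [Ne, map_eq_zero]; exact hd0
    field_simp
    rw [div_pow, mul_div_cancel₀ _ (pow_ne_zero n hb0)]
  have hf1 : ∀ τ, sqdLc E N (sqdNorm E N (h τ)) = 1 := fun τ => sqdLc_norm E N (hh0 τ)
  have hf0 : ∀ τ, sqdNorm E N (h τ) ≠ 0 := fun τ => sqdNorm_ne_zero E N (hh0 τ)
  -- the cocycle identity
  have hcoc : ∀ σ τ : ↥(sqdfH A E), sqdNorm E N (h (σ * τ)) =
      sqdNorm E N (h σ) * sqdRho A E N σ (sqdNorm E N (h τ)) := by
    intro σ τ
    have hne : sqdNorm E N (h σ) * sqdRho A E N σ (sqdNorm E N (h τ)) ≠ 0 :=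
      mul_ne_zero (hf0 σ) ((map_ne_zero_iff _ (sqdRho A E N σ).injective).2 (hf0 τ))
    refine sqd_eq_of_pow_eq E N n hn hne ?_ (hf1 _) ?_
    · apply mul_left_cancel₀ hg₁0
      rw [← hkey (σ * τ)]
      have h1 : ssdAutRing E N ((σ * τ : ↥(sqdfH A E)) : E ≃ₐ[ℚ] E) g₁ =
          sqdRho A E N σ (sqdRho A E N τ g₁) := by
        rw [← sqdRho_apply, map_mul]
        rfl
      rw [h1, sqdRho_apply A E N τ, hkey τ, map_mul, sqdRho_apply A E N σ g₁, hkey σ, map_pow,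
        mul_pow]
      ring
    · rw [sqdLc_mul, hf1, sqdRho_apply, sqdLc_aut, hf1, map_one, mul_one]
  -- Hilbert 90
  haveI : Finite ↥(sqdfH A E) := inferInstance
  obtain ⟨b, hb0, hb⟩ := sqdh_hilbert90 (sqdRho A E N) (sqdRho_injective A E N)
    (fun τ => sqdNorm E N (h τ)) hf0 hcoc
  -- the fixed function
  have hfixed : ∀ τ ∈ sqdfH A E, ssdAutRing E N τ (g₁ * b ^ n) = g₁ * b ^ n := by
    intro τ hτ
    have h1 := hkey ⟨τ, hτ⟩
    have h2 := hb ⟨τ, hτ⟩
    rw [sqdRho_apply] at h2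
    simp only at h1 h2
    rw [map_mul, h1, map_pow, mul_assoc, ← mul_pow, h2]
  obtain ⟨f, hf⟩ := sqdf_fixed A E N (g₁ * b ^ n) hfixed
  exact ⟨f, b, hb0, by rw [hf, hg₁]⟩

/-! ### the descent from `ℚ̄` -/

/-- `ssdUp` is compatible with the base change `E₀ → E`. -/
theorem sqd_up_iota (x : modularFunctionFieldFullC (ssgfE0 A E) N) :
    ssdUp E N (ssgfIota A E N x) = ssdUp (ssgfE0 A E) N x := by
  apply Subtype.ext
  show s18dUp E (coeffMap (ssgfIncl A E) (x : LaurentSeries (ssgfE0 A E))) =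
    s18dUp (ssgfE0 A E) (x : LaurentSeries (ssgfE0 A E))
  unfold s18dUp
  rw [coeffMap_coeffMap]
  exact coeffMap_congr (RingHom.ext fun c => rfl) _

set_option maxHeartbeats 1000000 in
/-- **(C4) THE DESCENT OF AN INERTIA-FIXED TORSION CLASS TO THE INERTIA FIELD.** -/
theorem sqd_descend (n : ℕ) (hn : n ≠ 0) (g : modularFunctionFieldBar N) (hg : g ≠ 0)
    (hdiv : ∀ R : Place Qb (modularFunctionFieldBar N), (n : ℤ) ∣ R.ord g)
    (hfix : ∀ σ ∈ A.inertiaSubgroupIn ℚ, ∃ h : modularFunctionFieldBar N,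
      ssGal N σ g = g * h ^ n) :
    ∃ E₁ : IntermediateField ℚ Qb, FiniteDimensional ℚ E₁ ∧
      ∀ (E : IntermediateField ℚ Qb) [FiniteDimensional ℚ E] [Normal ℚ E], E₁ ≤ E →
        ∃ f : modularFunctionFieldFullC (ssgfE0 A E) N, f ≠ 0 ∧
          (∃ (b : modularFunctionFieldBar N) (c : Qb), b ≠ 0 ∧ c ≠ 0 ∧
            ssdUp (ssgfE0 A E) N f =
              algebraMap Qb (modularFunctionFieldBar N) c * g * b ^ n) ∧
          ∀ R₀ : Place (ssgfE0 A E) (modularFunctionFieldFullC (ssgfE0 A E) N),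
            (n : ℤ) ∣ R₀.ord f := by
  classical
  obtain ⟨E₂, hE₂, hdesc⟩ := ssd_descend N n g hg hdiv
  haveI := hE₂
  haveI halg : Algebra.IsAlgebraic ℚ Qb := AlgebraicClosure.isAlgebraic ℚ
  haveI hcl : IsAlgClosure ℚ Qb := AlgebraicClosure.instIsAlgClosure ℚ
  haveI hnormQb : Normal ℚ Qb := IsAlgClosure.normal ℚ Qb
  obtain ⟨E₃, hE₃def⟩ : ∃ E₃ : IntermediateField ℚ Qb,
      E₃ = IntermediateField.normalClosure ℚ E₂ Qb := ⟨_, rfl⟩
  have hE₂E₃ : E₂ ≤ E₃ := hE₃def ▸ IntermediateField.le_normalClosure E₂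
  haveI hfd₃ : FiniteDimensional ℚ E₃ := by
    rw [hE₃def]; exact normalClosure.is_finiteDimensional ℚ E₂ Qb
  haveI hn₃ : Normal ℚ E₃ := by
    rw [hE₃def]; exact normalClosure.normal ℚ E₂ Qb
  obtain ⟨g₃, hg₃, -⟩ := hdesc E₃ hE₂E₃
  haveI : Fintype ↥(sqdfH A E₃) := Fintype.ofFinite _
  have hch : ∀ τ : ↥(sqdfH A E₃), ∃ (σ : Qb ≃ₐ[ℚ] Qb) (h : modularFunctionFieldBar N),
      σ ∈ A.inertiaSubgroupIn ℚ ∧ σ.restrictNormal E₃ = (τ : E₃ ≃ₐ[ℚ] E₃) ∧
        ssGal N σ g = g * h ^ n := by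
    intro τ
    obtain ⟨σ, hσ, hστ⟩ := τ.2
    obtain ⟨h, hh⟩ := hfix σ hσ
    exact ⟨σ, h, hσ, hστ, hh⟩
  choose sg hbar hsgI hsgτ hhbar using hch
  obtain ⟨E₄, hE₄, hmod⟩ := ssdr_exists_model_finset N (Finset.univ.image hbar)
  haveI := hE₄
  refine ⟨E₃ ⊔ E₄, IntermediateField.finiteDimensional_sup E₃ E₄, ?_⟩
  intro E _ _ hE
  have hE₃E : E₃ ≤ E := le_sup_left.trans hE
  have hE₄E : E₄ ≤ E := le_sup_right.trans hE
  obtain ⟨gE, hgE, hg1, -, -⟩ := hdesc E (hE₂E₃.trans hE₃E)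
  have hgE0 : gE ≠ 0 := by
    rintro rfl
    rw [map_zero] at hgE
    exact hg hgE.symm
  -- the hypothesis of the descent at level `E`
  have hfixE : ∀ τ' ∈ sqdfH A E, ∃ h : modularFunctionFieldFullC E N,
      ssdAutRing E N τ' gE = gE * h ^ n := by
    rintro τ' ⟨σ, hσ, rfl⟩
    obtain ⟨τ, hτ⟩ : ∃ τ : ↥(sqdfH A E₃), (τ : E₃ ≃ₐ[ℚ] E₃) = σ.restrictNormal E₃ :=
      ⟨⟨σ.restrictNormal E₃, mem_sqdfH A E₃ hσ⟩, rfl⟩
    obtain ⟨hE', hhE'⟩ := hmod E hE₄E (hbar τ) (Finset.mem_image_of_mem _ (Finset.mem_univ _))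
    refine ⟨hE', ?_⟩
    apply ssdUp_injective E N
    rw [map_mul, map_pow, hhE', hgE]
    have h1 : ssdUp E N (ssdAutRing E N (σ.restrictNormal E) gE) = ssGal N σ g := by
      rw [← hgE]; exact ssdUp_aut E N σ gE
    have h2 : ssGal N σ g = ssGal N (sg τ) g := by
      rw [← hg₃]
      have e1 : ssdUp E₃ N (ssdAutRing E₃ N (σ.restrictNormal E₃) g₃) =
          ssGal N σ (ssdUp E₃ N g₃) := ssdUp_aut E₃ N σ g₃
      have e2 : ssdUp E₃ N (ssdAutRing E₃ N ((sg τ).restrictNormal E₃) g₃) =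
          ssGal N (sg τ) (ssdUp E₃ N g₃) := ssdUp_aut E₃ N (sg τ) g₃
      rw [hsgτ τ, hτ] at e2
      exact e1.symm.trans e2
    exact h1.trans (h2.trans (hhbar τ))
  obtain ⟨f, b, hb0, hf⟩ := sqd_descend_E A E N n hn gE hgE0 hfixE
  have hιf0 : ssgfIota A E N f ≠ 0 := by
    rw [hf]
    exact mul_ne_zero (sqdNorm_ne_zero E N hgE0) (pow_ne_zero n hb0)
  have hf0 : f ≠ 0 := by
    rintro rfl
    exact hιf0 (map_zero _)
  have hc0 : sqdLc E N gE ≠ 0 := sqdLc_ne_zero E N hgE0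
  refine ⟨f, hf0, ⟨ssdUp E N b, algebraMap E Qb (sqdLc E N gE)⁻¹, ?_, ?_, ?_⟩, fun R₀ => ?_⟩
  · exact (map_ne_zero_iff _ (ssdUp_injective E N)).2 hb0
  · rw [Ne, map_eq_zero]; exact inv_ne_zero hc0
  · rw [← sqd_up_iota, hf]
    unfold sqdNorm
    rw [map_mul, map_mul, map_pow, ssdUp_algebraMap, hgE]
  · obtain ⟨R, hR⟩ := sqdp_exists_above A E N R₀
    rw [← hR f, hf]
    unfold sqdNorm
    have ha0 : algebraMap E (modularFunctionFieldFullC E N) (sqdLc E N gE)⁻¹ ≠ 0 := by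
      rw [Ne, map_eq_zero]; exact inv_ne_zero hc0
    rw [R.ord_mul (mul_ne_zero ha0 hgE0) (pow_ne_zero n hb0), R.ord_mul ha0 hgE0,
      PlaceOrd.ord_algebraMap, zero_add, ← zpow_natCast, R.ord_zpow]
    exact dvd_add (hg1 R) (dvd_mul_right _ _)

end Fermat.Agent.SQ
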