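import Mathlib
import Fermat.Agent.SQ.Descend.Main
import Fermat.Agent.S18.A.ConstCore

/-!
# Program Q (S36), leaf (C4) : the inertia-fixed functions, roots, and the `Pic⁰` wrapper
(prefix `sqd`)

* `sqd_model_fixed` : `F_ℚ̄(N)^I = ⋃ F_{E₀}(N)` : an `I`-fixed `y ∈ F_ℚ̄(N)` comes from `F_{E₀}(N)`,
  `E₀ = ssgfE0 𝔸 E`, for every big enough finite normal `E`;
* `sqd_root_descend` : `y` `I`-fixed and `y = c̄ ḡⁿ` over `ℚ̄` ⟹ `y = c gⁿ` with `c ∈ E₀ˣ`,
  `g ∈ F_{E₀}(N)ˣ` (the push-forward half : apply to `y = Norm f`);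
* `sqd_hfix_of_class` : the hypothesis `hfix` of `sqd_descend` from `σ • x = x` in `JZero N`.
-/

set_option autoImplicit false
set_option linter.unusedSectionVars false
set_option linter.unusedVariables false
set_option linter.style.haveILetI false
set_option synthInstance.maxHeartbeats 400000

noncomputable section

namespace Fermat.Agent.SQ

open Polynomial ModularCurve AlgebraicCurve IntermediateField Fermat.Agent.S18 Fermat.Agent.SS
  Fermat.Agent.S24

local notation "Qb" => AlgebraicClosure ℚ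

variable (A : ValuationSubring Qb) (N : ℕ) [NeZero N]

/-- **`F_ℚ̄(N)^I = ⋃ F_{E₀}(N)`.** -/
theorem sqd_model_fixed (y : modularFunctionFieldBar N)
    (hy : ∀ σ ∈ A.inertiaSubgroupIn ℚ, ssGal N σ y = y) :
    ∃ E₁ : IntermediateField ℚ Qb, FiniteDimensional ℚ E₁ ∧
      ∀ (E : IntermediateField ℚ Qb) [FiniteDimensional ℚ E] [Normal ℚ E], E₁ ≤ E →
        ∃ g : modularFunctionFieldFullC (ssgfE0 A E) N, ssdUp (ssgfE0 A E) N g = y := by
  haveI halg : Algebra.IsAlgebraic ℚ Qb := AlgebraicClosure.isAlgebraic ℚ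
  haveI hcl : IsAlgClosure ℚ Qb := AlgebraicClosure.instIsAlgClosure ℚ
  haveI hnormQb : Normal ℚ Qb := IsAlgClosure.normal ℚ Qb
  obtain ⟨E₁, hE₁, hmod⟩ := ssdr_exists_model N y
  refine ⟨E₁, hE₁, fun E _ _ hE => ?_⟩
  obtain ⟨z, hz⟩ := hmod E hE
  have hfixed : ∀ τ ∈ sqdfH A E, ssdAutRing E N τ z = z := by
    rintro τ ⟨σ, hσ, rfl⟩
    apply ssdUp_injective E N
    have h1 : ssdUp E N (ssdAutRing E N (σ.restrictNormal E) z) = ssGal N σ (ssdUp E N z) :=
      ssdUp_aut E N σ z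
    exact h1.trans (by rw [hz]; exact hy σ hσ)
  obtain ⟨g, hg⟩ := sqdf_fixed A E N z hfixed
  exact ⟨g, by rw [← sqd_up_iota, hg, hz]⟩

/-! ### leading coefficients in `F_ℚ̄(N)` -/

/-- the leading coefficient of the `q`-expansion -/
def sqdLcB (y : modularFunctionFieldBar N) : Qb := (y : LaurentSeries Qb).leadingCoeff

theorem sqdLcB_mul (x y : modularFunctionFieldBar N) :
    sqdLcB N (x * y) = sqdLcB N x * sqdLcB N y :=
  HahnSeries.leadingCoeff_mul _ _

theorem sqdLcB_one : sqdLcB N 1 = 1 := HahnSeries.leadingCoeff_one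

theorem sqdLcB_ne_zero {y : modularFunctionFieldBar N} (hy : y ≠ 0) : sqdLcB N y ≠ 0 :=
  HahnSeries.leadingCoeff_ne_zero.2 fun h => hy (Subtype.ext h)

theorem sqdLcB_pow (x : modularFunctionFieldBar N) (n : ℕ) :
    sqdLcB N (x ^ n) = sqdLcB N x ^ n := by
  induction n with
  | zero => rw [pow_zero, pow_zero, sqdLcB_one]
  | succ m ih => rw [pow_succ, sqdLcB_mul, ih, pow_succ]

theorem sqdLcB_algebraMap (c : Qb) :
    sqdLcB N (algebraMap Qb (modularFunctionFieldBar N) c) = c := by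
  show (algebraMap Qb (LaurentSeries Qb) c).leadingCoeff = c
  rw [algebraMap_laurentSeries_eq_single]
  exact HahnSeries.leadingCoeff_of_single

theorem sqdLcB_gal (σ : Qb ≃ₐ[ℚ] Qb) (y : modularFunctionFieldBar N) :
    sqdLcB N (ssGal N σ y) = σ (sqdLcB N y) :=
  s18dd_leadingCoeff_coeffMap (σ : Qb →+* Qb) (y : LaurentSeries Qb)

/-- two elements of `F_ℚ̄(N)` with the same `n`-th power and leading coefficient `1` are equal. -/
theorem sqd_eq_of_pow_eq_bar {x y : modularFunctionFieldBar N} (n : ℕ) (hn : n ≠ 0)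
    (hy : y ≠ 0) (h : x ^ n = y ^ n) (hx1 : sqdLcB N x = 1) (hy1 : sqdLcB N y = 1) : x = y := by
  have h1 : (x / y) ^ n = 1 := by rw [div_pow, h, div_self (pow_ne_zero n hy)]
  have h2 : sqdLcB N (x / y) = 1 := by
    have h3 : sqdLcB N (x / y) * sqdLcB N y = sqdLcB N x := by
      rw [← sqdLcB_mul, div_mul_cancel₀ _ hy]
    rw [hx1, hy1, mul_one] at h3
    exact h3
  have h4 : ((x / y : modularFunctionFieldBar N) : LaurentSeries Qb) = 1 :=
    sqd_eq_one_of_pow_eq_one _ n hn (by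
      have := congrArg (fun z : modularFunctionFieldBar N => (z : LaurentSeries Qb)) h1
      simpa using this) h2
  have h5 : x / y = 1 := Subtype.ext h4
  rwa [div_eq_one_iff_eq hy] at h5

set_option maxHeartbeats 1000000 in
/-- **THE PUSH-FORWARD HALF** : an `I`-fixed function which is a constant times an `n`-th power over
`ℚ̄` is a constant times an `n`-th power over the inertia field `E₀`. -/
theorem sqd_root_descend (n : ℕ) (hn : n ≠ 0) (y gb : modularFunctionFieldBar N) (cb : Qb)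
    (hy0 : y ≠ 0) (hy : ∀ σ ∈ A.inertiaSubgroupIn ℚ, ssGal N σ y = y)
    (hroot : y = algebraMap Qb (modularFunctionFieldBar N) cb * gb ^ n) :
    ∃ E₁ : IntermediateField ℚ Qb, FiniteDimensional ℚ E₁ ∧
      ∀ (E : IntermediateField ℚ Qb) [FiniteDimensional ℚ E] [Normal ℚ E], E₁ ≤ E →
        ∃ (g : modularFunctionFieldFullC (ssgfE0 A E) N) (c : ssgfE0 A E), g ≠ 0 ∧ c ≠ 0 ∧
          ssdUp (ssgfE0 A E) N
            (algebraMap (ssgfE0 A E) (modularFunctionFieldFullC (ssgfE0 A E) N) c * g ^ n) = y := by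
  have hgb0 : gb ≠ 0 := by
    rintro rfl
    rw [zero_pow hn, mul_zero] at hroot
    exact hy0 hroot
  have hd0 : sqdLcB N gb ≠ 0 := sqdLcB_ne_zero N hgb0
  have had0 : algebraMap Qb (modularFunctionFieldBar N) (sqdLcB N gb) ≠ 0 := by
    rw [Ne, map_eq_zero]; exact hd0
  -- the normalised root
  obtain ⟨g₀, hg₀⟩ : ∃ x, x = algebraMap Qb (modularFunctionFieldBar N) (sqdLcB N gb)⁻¹ * gb :=
    ⟨_, rfl⟩
  have hg₀0 : g₀ ≠ 0 := by
    rw [hg₀]
    refine mul_ne_zero ?_ hgb0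
    rw [Ne, map_eq_zero]; exact inv_ne_zero hd0
  have hg₀lc : sqdLcB N g₀ = 1 := by
    rw [hg₀, sqdLcB_mul, sqdLcB_algebraMap, inv_mul_cancel₀ hd0]
  obtain ⟨c₁, hc₁⟩ : ∃ c, c = cb * sqdLcB N gb ^ n := ⟨_, rfl⟩
  have hy' : y = algebraMap Qb (modularFunctionFieldBar N) c₁ * g₀ ^ n := by
    rw [hroot, hc₁, hg₀, map_mul, map_pow, mul_pow, map_inv₀, inv_pow]
    have hpow0 : algebraMap Qb (modularFunctionFieldBar N) (sqdLcB N gb) ^ n ≠ 0 :=
      pow_ne_zero n had0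
    rw [mul_assoc, ← mul_assoc (_ ^ n) (_ ^ n)⁻¹, mul_inv_cancel₀ hpow0, one_mul]
  have hc₁0 : c₁ ≠ 0 := by
    rintro rfl
    rw [map_zero, zero_mul] at hy'
    exact hy0 hy'
  have hlcy : sqdLcB N y = c₁ := by
    rw [hy', sqdLcB_mul, sqdLcB_pow, sqdLcB_algebraMap, hg₀lc, one_pow, mul_one]
  -- the constant and the root are fixed by inertia
  have hc₁fix : ∀ σ ∈ A.inertiaSubgroupIn ℚ, σ c₁ = c₁ := by
    intro σ hσ
    rw [← hlcy, ← sqdLcB_gal, hy σ hσ]
  have hg₀fix : ∀ σ ∈ A.inertiaSubgroupIn ℚ, ssGal N σ g₀ = g₀ := by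
    intro σ hσ
    refine sqd_eq_of_pow_eq_bar N n hn hg₀0 ?_ (by rw [sqdLcB_gal, hg₀lc, map_one]) hg₀lc
    have h1 := hy σ hσ
    have hσc : ssGal N σ (algebraMap Qb (modularFunctionFieldBar N) c₁) =
        algebraMap Qb (modularFunctionFieldBar N) (σ c₁) :=
      arithmeticRingAut_algebraMap (modularFunctionFieldFull N) σ c₁
    have hac0 : algebraMap Qb (modularFunctionFieldBar N) c₁ ≠ 0 := by
      rw [Ne, map_eq_zero]; exact hc₁0
    apply mul_left_cancel₀ hac0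
    rw [← hy']
    conv_rhs => rw [← h1, hy']
    rw [map_mul, map_pow, hσc, hc₁fix σ hσ]
  obtain ⟨E₁, hE₁, hmod⟩ := sqd_model_fixed A N g₀ hg₀fix
  haveI := hE₁
  haveI : FiniteDimensional ℚ ℚ⟮c₁⟯ := s18dd_finiteDimensional_adjoin c₁
  refine ⟨E₁ ⊔ ℚ⟮c₁⟯, IntermediateField.finiteDimensional_sup _ _, fun E _ _ hE => ?_⟩
  obtain ⟨g, hg⟩ := hmod E (le_sup_left.trans hE)
  have hc₁E : c₁ ∈ E := (le_sup_right.trans hE) (IntermediateField.mem_adjoin_simple_self ℚ c₁)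
  have hc₁E₀ : c₁ ∈ ssgfE0 A E := (mem_ssgfE0 A E).2 ⟨hc₁E, hc₁fix⟩
  refine ⟨g, ⟨c₁, hc₁E₀⟩, ?_, ?_, ?_⟩
  · rintro rfl
    rw [map_zero] at hg
    exact hg₀0 hg.symm
  · intro h0
    exact hc₁0 (congrArg Subtype.val h0)
  · rw [map_mul, map_pow, hg, ssdUp_algebraMap, hy']
    rfl

/-! ### from `Pic⁰` to functions -/

/-- **THE HYPOTHESIS `hfix` OF `sqd_descend`** : if the class of `D` (`n D = div g`) is fixed by
`σ`, then `σ g / g` is an `n`-th power in `F_ℚ̄(N)`. -/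
theorem sqd_hfix_of_class (σ : Qb ≃ₐ[ℚ] Qb)
    (D : Divisor.degZero (K := Qb) (F := modularFunctionFieldBar N)) (n : ℕ) (hn : n ≠ 0)
    (g : modularFunctionFieldBar N) (hg0 : g ≠ 0)
    (hgD : ∀ v : Place Qb (modularFunctionFieldBar N),
      v.ord g = (n : ℤ) * (D : Divisor Qb (modularFunctionFieldBar N)) v)
    (hx : σ • (Pic0.mk D : JZero N) = Pic0.mk D) :
    ∃ h : modularFunctionFieldBar N, ssGal N σ g = g * h ^ n := by
  obtain ⟨s, hs⟩ : ∃ s, s = arithmeticGalois (modularFunctionFieldFull N) σ := ⟨_, rfl⟩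
  have hx' : s • Pic0.mk D = Pic0.mk D := by rw [hs]; exact hx
  rw [SemilinearAut.pic0_smul_mk] at hx'
  have hmem := (QuotientAddGroup.eq_iff_sub_mem).1 hx'
  rw [AddSubgroup.mem_addSubgroupOf] at hmem
  obtain ⟨h₀, hh₀, hord⟩ := hmem
  have hord' : ∀ v : Place Qb (modularFunctionFieldBar N),
      v.ord h₀ = (D : Divisor Qb (modularFunctionFieldBar N)) (s⁻¹ • v) -
        (D : Divisor Qb (modularFunctionFieldBar N)) v := by
    intro v
    rw [← hord v]
    simp only [AddSubgroup.coe_sub, SemilinearAut.coe_degZeroSMulHom, Finsupp.coe_sub,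
      Pi.sub_apply, SemilinearAut.divisor_smul_apply]
  have hsg0 : s • g ≠ 0 := sstk_smul_ne_zero s hg0
  obtain ⟨u, hu⟩ : ∃ u, u = s • g / (g * h₀ ^ n) := ⟨_, rfl⟩
  have hu0 : u ≠ 0 := hu ▸ div_ne_zero hsg0 (mul_ne_zero hg0 (pow_ne_zero n hh₀))
  have hordu : ∀ v : Place Qb (modularFunctionFieldBar N), v.ord u = 0 := by
    intro v
    rw [hu, div_eq_mul_inv, v.ord_mul hsg0 (inv_ne_zero (mul_ne_zero hg0 (pow_ne_zero n hh₀))),
      v.ord_inv, v.ord_mul hg0 (pow_ne_zero n hh₀), ← zpow_natCast, v.ord_zpow,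
      sstk_ord_smul s v g, hgD, hgD, hord' v]
    ring
  obtain ⟨c, hc⟩ := s18ac_const_of_isSepGen (modularFunctionFieldBar N) (isSepGen_jBar N) u hordu
  have hc0 : c ≠ 0 := by
    rintro rfl
    rw [map_zero] at hc
    exact hu0 hc
  obtain ⟨d, hd⟩ := IsAlgClosed.exists_pow_nat_eq c (Nat.pos_of_ne_zero hn)
  refine ⟨algebraMap Qb (modularFunctionFieldBar N) d * h₀, ?_⟩
  have h1 : s • g = u * (g * h₀ ^ n) := by
    rw [hu, div_mul_cancel₀ _ (mul_ne_zero hg0 (pow_ne_zero n hh₀))]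
  have h2 : ssGal N σ g = s • g := by rw [hs]; rfl
  rw [h2, h1, hc, ← hd, map_pow, mul_pow]
  ring

/-- **(C4) AT THE LEVEL OF `JZero N`** : an inertia-fixed `n`-torsion class `x` is represented by
`(D, g)` over `ℚ̄` and, for every big enough finite normal `E`, by a Kummer function
`f ∈ F_{E₀}(N)ˣ`, `E₀ = ssgfE0 𝔸 E`, with `n ∣ ord_{R₀} f` at every place of `F_{E₀}(N)` and
`f = c g bⁿ` over `ℚ̄`. -/
theorem sqd_descend_class (n : ℕ) (hn : n ≠ 0) (x : JZero N) (hx : n • x = 0)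
    (hfix : ∀ σ ∈ A.inertiaSubgroupIn ℚ, σ • x = x) :
    ∃ (D : Divisor.degZero (K := Qb) (F := modularFunctionFieldBar N))
      (g : modularFunctionFieldBar N), x = Pic0.mk D ∧ g ≠ 0 ∧
      (∀ v : Place Qb (modularFunctionFieldBar N),
        v.ord g = (n : ℤ) * (D : Divisor Qb (modularFunctionFieldBar N)) v) ∧
      ∃ E₁ : IntermediateField ℚ Qb, FiniteDimensional ℚ E₁ ∧
        ∀ (E : IntermediateField ℚ Qb) [FiniteDimensional ℚ E] [Normal ℚ E], E₁ ≤ E →
          ∃ f : modularFunctionFieldFullC (ssgfE0 A E) N, f ≠ 0 ∧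
            (∃ (b : modularFunctionFieldBar N) (c : Qb), b ≠ 0 ∧ c ≠ 0 ∧
              ssdUp (ssgfE0 A E) N f =
                algebraMap Qb (modularFunctionFieldBar N) c * g * b ^ n) ∧
            ∀ R₀ : Place (ssgfE0 A E) (modularFunctionFieldFullC (ssgfE0 A E) N),
              (n : ℤ) ∣ R₀.ord f := by
  obtain ⟨D, rfl⟩ := Pic0.mk_surjective x
  obtain ⟨g, hg0, hgD⟩ := sstk_exists_fun D n hx
  refine ⟨D, g, rfl, hg0, hgD, ?_⟩
  exact sqd_descend A N n hn g hg0 (fun R => ⟨_, hgD R⟩)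
    (fun σ hσ => sqd_hfix_of_class N σ D n hn g hg0 hgD (hfix σ hσ))

/-- **THE WAY BACK** : if `g^m` is a constant times an `n`-th power (`n D = div g`) then `m` kills
the class of `D`. -/
theorem sqd_class_kill (D : Divisor.degZero (K := Qb) (F := modularFunctionFieldBar N)) (n : ℕ)
    (hn : n ≠ 0) (g : modularFunctionFieldBar N) (hg0 : g ≠ 0)
    (hgD : ∀ v : Place Qb (modularFunctionFieldBar N),
      v.ord g = (n : ℤ) * (D : Divisor Qb (modularFunctionFieldBar N)) v)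
    (m : ℕ) (w : modularFunctionFieldBar N) (c : Qb) (hc : c ≠ 0)
    (h : g ^ m = algebraMap Qb (modularFunctionFieldBar N) c * w ^ n) :
    m • (Pic0.mk D : JZero N) = 0 := by
  have hw0 : w ≠ 0 := by
    rintro rfl
    rw [zero_pow hn, mul_zero] at h
    exact pow_ne_zero m hg0 h
  have hac0 : algebraMap Qb (modularFunctionFieldBar N) c ≠ 0 := by
    rw [Ne, map_eq_zero]; exact hc
  have hord : ∀ v : Place Qb (modularFunctionFieldBar N),
      v.ord w = (m : ℤ) * (D : Divisor Qb (modularFunctionFieldBar N)) v := by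
    intro v
    have h1 := congrArg v.ord h
    rw [← zpow_natCast, v.ord_zpow, v.ord_mul hac0 (pow_ne_zero n hw0), PlaceOrd.ord_algebraMap,
      zero_add, ← zpow_natCast, v.ord_zpow, hgD v] at h1
    have hn' : (n : ℤ) ≠ 0 := by exact_mod_cast hn
    apply mul_left_cancel₀ hn'
    linear_combination -h1
  have hmk : m • (Pic0.mk D : JZero N) = Pic0.mk (m • D) :=
    (map_nsmul (QuotientAddGroup.mk' _) m D).symm
  rw [hmk]
  refine (QuotientAddGroup.eq_zero_iff _).2 ?_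
  rw [AddSubgroup.mem_addSubgroupOf]
  refine ⟨w, hw0, fun v => ?_⟩
  rw [hord v]
  simp [Finsupp.smul_apply]

end Fermat.Agent.SQ
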