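import Mathlib
import Fermat.Agent.SQ.Descend.Class
import Fermat.Agent.SQ.Descend.Inertia
import Fermat.Agent.S18.Core.Spec
import Fermat.Agent.S35.Push.Norm
import Fermat.Agent.S35.Push.Descend

/-!
# Program Q (S36), (C4) descent : THE NORMALISED NEW KUMMER DATUM OVER THE INERTIA FIELD
(prefix `sqdn`, main theorems `sqd_descend_new_strong`, `sqd_descend_new`)

`𝔸 ⊂ ℚ̄` over `q`, `q ∤ n`, `x ∈ J₀(M q)[n]` fixed by the inertia group `I` of `𝔸` and killed by both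
degeneracy push-forwards `α_*, φ_* : J₀(M q) → J₀(M)` (ANY `M`, in particular `q ∣ M`).  Then, for
every big enough finite normal `E`, over the inertia field `E₀ = ssgfE0 𝔸 E` (where `q` is a
uniformiser : `sqdi_irreducible`) there are `f ∈ F_{E₀}(M q)ˣ`, `gα, gφ ∈ F_{E₀}(M)ˣ`, `mα mφ : ℤ` with
`div f = n D`, `x = [D]`, `n ∣ ord_R f` at every place of `F_{E₀}(M q)`, and
`N_α f = q^mα gαⁿ`, `N_φ f = q^mφ gφⁿ`   (NO other constant).

Proof : everything is normalised over `ℚ̄` FIRST.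
* `sqdn_root_fixed` : `n`-th roots of `I`-fixed units of `𝔸` are `I`-fixed (`q ∤ n`);
* `sqdn_const_decomp` : an `I`-fixed constant is `q^m` times an `I`-fixed unit
  (the value group of `ℚ̄^I` is `ℤ v(q)` : `sqdi_irreducible`);
* `sqdn_root_split`, `sqdn_root_normal` : an `I`-fixed `y = c̄ ḡⁿ` is `q^m Gⁿ`, `G` `I`-fixed;
* the `I`-fixed Kummer function `F̄ = c f̄ bⁿ` (`sqd_descend`), its two norms (helper7's
  `s35w_new_kummer`, `s35wd_up_norm_alpha/_beta`), then `sqd_model_fixed` three times.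
-/

set_option autoImplicit false
set_option linter.unusedSectionVars false
set_option linter.unusedVariables false
set_option linter.style.haveILetI false

noncomputable section

namespace Fermat.Agent.SQ

open Polynomial ModularCurve AlgebraicCurve IntermediateField Fermat.Agent.S18 Fermat.Agent.SS
  Fermat.Agent.S24 Fermat.Agent.G

local notation "Qb" => AlgebraicClosure ℚ

variable (A : ValuationSubring Qb)

/-- **`n`-th roots of inertia-fixed units are inertia-fixed** (`q ∤ n`). -/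
theorem sqdn_root_fixed {q : ℕ} (hq : q.Prime) (hA : A.LiesOverPrime q) {n : ℕ} (hn : ¬ q ∣ n)
    (u w : Qb) (hu : A.valuation u = 1) (hw : w ^ n = u)
    (σ : Qb ≃ₐ[ℚ] Qb) (hσ : σ ∈ A.inertiaSubgroupIn ℚ) (hσu : σ u = u) : σ w = w := by
  have hn0 : n ≠ 0 := fun h => hn (h ▸ dvd_zero q)
  have hvw : A.valuation w = 1 := by
    have h1 : A.valuation w ^ n = 1 := by rw [← map_pow, hw, hu]
    rcases lt_trichotomy (A.valuation w) 1 with hlt | heq | hgt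
    · exact absurd h1 (ne_of_lt (pow_lt_one₀ zero_le hlt hn0))
    · exact heq
    · exact absurd h1 (ne_of_gt (one_lt_pow₀ hgt hn0))
  have hwA : w ∈ A := (A.valuation_le_one_iff w).1 hvw.le
  have hw0 : w ≠ 0 := by
    rintro rfl
    rw [map_zero] at hvw
    exact zero_ne_one hvw
  have hin := Fermat.Agent.S05.isInertial_of_mem_inertiaSubgroupIn A σ hσ
  have hsub : σ w - w ∈ A.nonunits := hin.sub_mem w hwA
  have hξ : (σ w / w) ^ n = 1 := by
    rw [div_pow, ← map_pow, hw, hσu, div_self]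
    rw [← hw]; exact pow_ne_zero n hw0
  have hmem : σ w / w - 1 ∈ A.nonunits := by
    rw [ValuationSubring.mem_nonunits_iff] at hsub ⊢
    have : σ w / w - 1 = (σ w - w) / w := by field_simp
    rw [this, map_div₀, hvw, div_one]
    exact hsub
  have h1 := Fermat.Agent.G.guny_root_eq_of_sub_mem hq hn A hA (one_pow n) hξ hmem
  exact (div_eq_one_iff_eq hw0).1 h1

/-- **the value group of `ℚ̄^I` is `ℤ·v(q)`** : an inertia-fixed constant is `q^m` times an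
inertia-fixed unit. -/
theorem sqdn_const_decomp {q : ℕ} (hq : q.Prime) (hA : A.LiesOverPrime q) (c : Qb) (hc : c ≠ 0)
    (hfix : ∀ σ ∈ A.inertiaSubgroupIn ℚ, σ c = c) :
    ∃ (m : ℤ) (u : Qb), A.valuation u = 1 ∧ (∀ σ ∈ A.inertiaSubgroupIn ℚ, σ u = u) ∧
      c = ((q : ℕ) : Qb) ^ m * u := by
  classical
  haveI : Fact q.Prime := ⟨hq⟩
  haveI halg : Algebra.IsAlgebraic ℚ Qb := AlgebraicClosure.isAlgebraic ℚ
  haveI hcl : IsAlgClosure ℚ Qb := AlgebraicClosure.instIsAlgClosure ℚ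
  haveI hnormQb : Normal ℚ Qb := IsAlgClosure.normal ℚ Qb
  haveI : FiniteDimensional ℚ ℚ⟮c⟯ := s18dd_finiteDimensional_adjoin c
  obtain ⟨E, hEdef⟩ : ∃ E : IntermediateField ℚ Qb,
      E = IntermediateField.normalClosure ℚ ℚ⟮c⟯ Qb := ⟨_, rfl⟩
  haveI hfd : FiniteDimensional ℚ E := by
    rw [hEdef]; exact normalClosure.is_finiteDimensional ℚ ℚ⟮c⟯ Qb
  haveI hnE : Normal ℚ E := by
    rw [hEdef]; exact normalClosure.normal ℚ ℚ⟮c⟯ Qb
  have hcE : c ∈ E := by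
    rw [hEdef]
    exact IntermediateField.le_normalClosure ℚ⟮c⟯ (IntermediateField.mem_adjoin_simple_self ℚ c)
  have hcE₀ : c ∈ ssgfE0 A E := (mem_ssgfE0 A E).2 ⟨hcE, hfix⟩
  have hirr := sqdi_irreducible A hq hA E
  haveI : IsDiscreteValuationRing ↥(s18dVal A (ssgfE0 A E)) := s18d_isDVR A (ssgfE0 A E) hA
  set c₀ : ssgfE0 A E := ⟨c, hcE₀⟩ with hc₀
  have hc₀0 : c₀ ≠ 0 := fun h => hc (congrArg Subtype.val h)
  obtain ⟨m, u, hu⟩ := IsDiscreteValuationRing.exists_units_eq_smul_zpow_of_irreducible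
    (K := ssgfE0 A E) hirr hc₀0
  rw [Units.smul_def, Algebra.smul_def] at hu
  -- the unit as an element of `ℚ̄`
  have huA : (((u : ↥(s18dVal A (ssgfE0 A E))) : ssgfE0 A E) : Qb) ∈ A :=
    (u : ↥(s18dVal A (ssgfE0 A E))).2
  have huinvA : ((((u⁻¹ : (↥(s18dVal A (ssgfE0 A E)))ˣ) : ↥(s18dVal A (ssgfE0 A E))) :
      ssgfE0 A E) : Qb) ∈ A :=
    ((u⁻¹ : (↥(s18dVal A (ssgfE0 A E)))ˣ) : ↥(s18dVal A (ssgfE0 A E))).2
  have hmul : (((u : ↥(s18dVal A (ssgfE0 A E))) : ssgfE0 A E) : Qb) *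
      ((((u⁻¹ : (↥(s18dVal A (ssgfE0 A E)))ˣ) : ↥(s18dVal A (ssgfE0 A E))) : ssgfE0 A E) : Qb)
        = 1 := by
    have h1 : (u : ↥(s18dVal A (ssgfE0 A E))) *
        ((u⁻¹ : (↥(s18dVal A (ssgfE0 A E)))ˣ) : ↥(s18dVal A (ssgfE0 A E))) = 1 := by simp
    have h2 : ((((u : ↥(s18dVal A (ssgfE0 A E))) *
        ((u⁻¹ : (↥(s18dVal A (ssgfE0 A E)))ˣ) : ↥(s18dVal A (ssgfE0 A E))) :
        ↥(s18dVal A (ssgfE0 A E))) : ssgfE0 A E) : Qb) = 1 := by rw [h1]; rfl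
    exact h2
  refine ⟨m, (((u : ↥(s18dVal A (ssgfE0 A E))) : ssgfE0 A E) : Qb), ?_, ?_, ?_⟩
  · apply le_antisymm ((A.valuation_le_one_iff _).2 huA)
    have h3 := congrArg A.valuation hmul
    rw [map_mul, map_one] at h3
    have h4 : A.valuation ((((u⁻¹ : (↥(s18dVal A (ssgfE0 A E)))ˣ) :
        ↥(s18dVal A (ssgfE0 A E))) : ssgfE0 A E) : Qb) ≤ 1 := (A.valuation_le_one_iff _).2 huinvA
    by_contra hlt
    push Not at hlt
    have h5 : A.valuation (((u : ↥(s18dVal A (ssgfE0 A E))) : ssgfE0 A E) : Qb) *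
        A.valuation ((((u⁻¹ : (↥(s18dVal A (ssgfE0 A E)))ˣ) :
        ↥(s18dVal A (ssgfE0 A E))) : ssgfE0 A E) : Qb) < 1 := by
      calc _ ≤ A.valuation (((u : ↥(s18dVal A (ssgfE0 A E))) : ssgfE0 A E) : Qb) * 1 :=
            mul_le_mul' le_rfl h4
        _ < 1 := by rw [mul_one]; exact hlt
    rw [h3] at h5
    exact lt_irrefl _ h5
  · intro σ hσ
    exact ((mem_ssgfE0 A E).1 ((u : ↥(s18dVal A (ssgfE0 A E))) : ssgfE0 A E).2).2 σ hσ
  · have h6 := congrArg (fun z : ssgfE0 A E => (z : Qb)) hu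
    simp only [hc₀] at h6
    rw [h6]
    push_cast
    rw [mul_comm]
    congr 1


section Root

variable (N : ℕ) [NeZero N]

/-- the action of `G_ℚ` on constants of `F_ℚ̄(N)` -/
theorem sqdn_gal_algebraMap (σ : Qb ≃ₐ[ℚ] Qb) (c : Qb) :
    ssGal N σ (algebraMap Qb (modularFunctionFieldBar N) c) =
      algebraMap Qb (modularFunctionFieldBar N) (σ c) :=
  arithmeticRingAut_algebraMap (modularFunctionFieldFull N) σ c

/-- an `I`-fixed `y = c̄ ḡⁿ` is `c₁ g₀ⁿ` with `c₁`, `g₀` both `I`-fixed. -/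
theorem sqdn_root_split (n : ℕ) (hn : n ≠ 0) (y gb : modularFunctionFieldBar N) (cb : Qb)
    (hy0 : y ≠ 0) (hy : ∀ σ ∈ A.inertiaSubgroupIn ℚ, ssGal N σ y = y)
    (hroot : y = algebraMap Qb (modularFunctionFieldBar N) cb * gb ^ n) :
    ∃ (g₀ : modularFunctionFieldBar N) (c₁ : Qb), g₀ ≠ 0 ∧ c₁ ≠ 0 ∧
      (∀ σ ∈ A.inertiaSubgroupIn ℚ, σ c₁ = c₁) ∧
      (∀ σ ∈ A.inertiaSubgroupIn ℚ, ssGal N σ g₀ = g₀) ∧
      y = algebraMap Qb (modularFunctionFieldBar N) c₁ * g₀ ^ n := by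
  have hgb0 : gb ≠ 0 := by
    rintro rfl
    rw [zero_pow hn, mul_zero] at hroot
    exact hy0 hroot
  have hd0 : sqdLcB N gb ≠ 0 := sqdLcB_ne_zero N hgb0
  have had0 : algebraMap Qb (modularFunctionFieldBar N) (sqdLcB N gb) ≠ 0 := by
    rw [Ne, map_eq_zero]; exact hd0
  obtain ⟨g₀, hg₀⟩ : ∃ x, x = algebraMap Qb (modularFunctionFieldBar N) (sqdLcB N gb)⁻¹ * gb :=
    ⟨_, rfl⟩
  have hg₀0 : g₀ ≠ 0 := by
    rw [hg₀]
    refine mul_ne_zero ?_ hgb0
    rw [Ne, map_eq_zero]; exact inv_ne_zero hd0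
  have hg₀lc : sqdLcB N g₀ = 1 := by
    rw [hg₀, sqdLcB_mul, sqdLcB_algebraMap, inv_mul_cancel₀ hd0]
  obtain ⟨c₁, hc₁⟩ : ∃ c, c = cb * sqdLcB N gb ^ n := ⟨_, rfl⟩
  have hy' : y = algebraMap Qb (modularFunctionFieldBar N) c₁ * g₀ ^ n := by
    rw [hroot, hc₁, hg₀, map_mul, map_pow, mul_pow, map_inv₀, inv_pow]
    have hpow0 : algebraMap Qb (modularFunctionFieldBar N) (sqdLcB N gb) ^ n ≠ 0 :=
      pow_ne_zero n had0
    rw [mul_assoc, ← mul_assoc (_ ^ n) (_ ^ n)⁻¹, mul_inv_cancel₀ hpow0, one_mul]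
  have hc₁0 : c₁ ≠ 0 := by
    rintro rfl
    rw [map_zero, zero_mul] at hy'
    exact hy0 hy'
  have hlcy : sqdLcB N y = c₁ := by
    rw [hy', sqdLcB_mul, sqdLcB_pow, sqdLcB_algebraMap, hg₀lc, one_pow, mul_one]
  have hc₁fix : ∀ σ ∈ A.inertiaSubgroupIn ℚ, σ c₁ = c₁ := by
    intro σ hσ
    rw [← hlcy, ← sqdLcB_gal, hy σ hσ]
  refine ⟨g₀, c₁, hg₀0, hc₁0, hc₁fix, fun σ hσ => ?_, hy'⟩
  refine sqd_eq_of_pow_eq_bar N n hn hg₀0 ?_ (by rw [sqdLcB_gal, hg₀lc, map_one]) hg₀lc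
  have h1 := hy σ hσ
  have hac0 : algebraMap Qb (modularFunctionFieldBar N) c₁ ≠ 0 := by
    rw [Ne, map_eq_zero]; exact hc₁0
  apply mul_left_cancel₀ hac0
  rw [← hy']
  conv_rhs => rw [← h1, hy']
  rw [map_mul, map_pow, sqdn_gal_algebraMap, hc₁fix σ hσ]

/-- **the normalised root** : an `I`-fixed `y = c̄ ḡⁿ` (`q ∤ n`) is `q^m Gⁿ` with `G` `I`-fixed. -/
theorem sqdn_root_normal {q : ℕ} (hq : q.Prime) (hA : A.LiesOverPrime q) (n : ℕ) (hn : n ≠ 0)
    (hqn : ¬ q ∣ n) (y gb : modularFunctionFieldBar N) (cb : Qb)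
    (hy0 : y ≠ 0) (hy : ∀ σ ∈ A.inertiaSubgroupIn ℚ, ssGal N σ y = y)
    (hroot : y = algebraMap Qb (modularFunctionFieldBar N) cb * gb ^ n) :
    ∃ (G : modularFunctionFieldBar N) (m : ℤ), G ≠ 0 ∧
      (∀ σ ∈ A.inertiaSubgroupIn ℚ, ssGal N σ G = G) ∧
      y = ((q : ℕ) : modularFunctionFieldBar N) ^ m * G ^ n := by
  obtain ⟨g₀, c₁, hg₀0, hc₁0, hc₁fix, hg₀fix, hy'⟩ := sqdn_root_split A N n hn y gb cb hy0 hy hroot
  obtain ⟨m, u, hu1, hufix, hcu⟩ := sqdn_const_decomp A hq hA c₁ hc₁0 hc₁fix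
  obtain ⟨w, hw⟩ := IsAlgClosed.exists_pow_nat_eq u (Nat.pos_of_ne_zero hn)
  have hwfix : ∀ σ ∈ A.inertiaSubgroupIn ℚ, σ w = w := fun σ hσ =>
    sqdn_root_fixed A hq hA hqn u w hu1 hw σ hσ (hufix σ hσ)
  have hw0 : w ≠ 0 := by
    rintro rfl
    rw [zero_pow hn] at hw
    rw [← hw, map_zero] at hu1
    exact zero_ne_one hu1
  refine ⟨algebraMap Qb (modularFunctionFieldBar N) w * g₀, m, ?_, fun σ hσ => ?_, ?_⟩
  · refine mul_ne_zero ?_ hg₀0
    rw [Ne, map_eq_zero]; exact hw0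
  · rw [map_mul, sqdn_gal_algebraMap, hwfix σ hσ, hg₀fix σ hσ]
  · rw [hy', hcu, mul_pow, ← map_pow, hw, map_mul, map_zpow₀, map_natCast, mul_assoc]

/-- the image of `F_{E₀}(N)` in `F_ℚ̄(N)` is fixed by inertia. -/
theorem sqdn_up_fixed (E : IntermediateField ℚ Qb)
    (z : modularFunctionFieldFullC (ssgfE0 A E) N) (σ : Qb ≃ₐ[ℚ] Qb)
    (hσ : σ ∈ A.inertiaSubgroupIn ℚ) :
    ssGal N σ (ssdUp (ssgfE0 A E) N z) = ssdUp (ssgfE0 A E) N z := by
  apply Subtype.ext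
  show coeffMap (σ : Qb →+* Qb) (s18dUp (ssgfE0 A E) (z : LaurentSeries (ssgfE0 A E))) =
    s18dUp (ssgfE0 A E) (z : LaurentSeries (ssgfE0 A E))
  unfold s18dUp
  rw [coeffMap_coeffMap]
  refine coeffMap_congr (RingHom.ext fun c => ?_) _
  exact ((mem_ssgfE0 A E).1 c.2).2 σ hσ

end Root


/-- the norm of a constant along a `K`-algebra map -/
theorem sqdn_norm_const {K F F' : Type*} [Field K] [Field F] [Field F'] [Algebra K F]
    [Algebra K F'] (φ : F →ₐ[K] F') (c : K) :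
    (letI := algebraAlong φ
     Algebra.norm F (algebraMap K F' c)) = algebraMap K F (c ^ finrankAlong K φ) := by
  letI := algebraAlong φ
  haveI := isScalarTower_along φ
  rw [IsScalarTower.algebraMap_apply K F F', Algebra.norm_algebraMap, map_pow]
  rfl

/-- the norm along a finite `K`-algebra map of fields does not vanish -/
theorem sqdn_norm_ne_zero {K F F' : Type*} [Field K] [Field F] [Field F'] [Algebra K F]
    [Algebra K F'] (φ : F →ₐ[K] F') (hfin : FiniteAlong K φ) {x : F'} (hx : x ≠ 0) :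
    (letI := algebraAlong φ
     Algebra.norm F x) ≠ 0 := by
  letI := algebraAlong φ
  haveI : Module.Finite F F' := hfin
  exact Algebra.norm_ne_zero_iff.2 hx

/-- the norm of `c f bⁿ` when the norm of `f` is an `n`-th power -/
theorem sqdn_norm_kummer {K F F' : Type*} [Field K] [Field F] [Field F'] [Algebra K F]
    [Algebra K F'] (φ : F →ₐ[K] F') (n : ℕ) (c : K) (f b : F') (v : F)
    (hN : (letI := algebraAlong φ
      Algebra.norm F f) = v ^ n) :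
    (letI := algebraAlong φ
     Algebra.norm F (algebraMap K F' c * f * b ^ n)) =
      algebraMap K F (c ^ finrankAlong K φ) *
        (v * (letI := algebraAlong φ
          Algebra.norm F b)) ^ n := by
  have h1 := sqdn_norm_const φ c
  letI := algebraAlong φ
  rw [map_mul, map_mul, map_pow, h1, hN, mul_pow, mul_assoc]

set_option maxHeartbeats 1000000 in
/-- **THE NORMALISED NEW KUMMER DATUM OVER THE INERTIA FIELD** (strong form : `D` first). -/
theorem sqd_descend_new_strong {q : ℕ} (hq : q.Prime) (hA : A.LiesOverPrime q) (M : ℕ) [NeZero M]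
    [NeZero q] (n : ℕ) (hn : n ≠ 0) (hqn : ¬ q ∣ n) (x : JZero (M * q)) (hx : n • x = 0)
    (hfix : ∀ σ ∈ A.inertiaSubgroupIn ℚ, σ • x = x)
    (hα : g37pPush M q x = 0) (hβ : s35wPushBeta M q x = 0) :
    ∃ (D : Divisor.degZero (K := Qb) (F := modularFunctionFieldBar (M * q)))
      (Fb : modularFunctionFieldBar (M * q)) (mα mφ : ℤ), x = Pic0.mk D ∧ Fb ≠ 0 ∧
      (∀ w : Place Qb (modularFunctionFieldBar (M * q)),
        w.ord Fb = (n : ℤ) * (D : Divisor Qb (modularFunctionFieldBar (M * q))) w) ∧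
      ∃ E₁ : IntermediateField ℚ Qb, FiniteDimensional ℚ E₁ ∧
        ∀ (E : IntermediateField ℚ Qb) [FiniteDimensional ℚ E] [Normal ℚ E], E₁ ≤ E →
          ∃ (f : modularFunctionFieldFullC (ssgfE0 A E) (M * q))
            (gα gφ : modularFunctionFieldFullC (ssgfE0 A E) M),
            ssdUp (ssgfE0 A E) (M * q) f = Fb ∧ f ≠ 0 ∧ gα ≠ 0 ∧ gφ ≠ 0 ∧
            (∀ R : Place (ssgfE0 A E) (modularFunctionFieldFullC (ssgfE0 A E) (M * q)),
              (n : ℤ) ∣ R.ord f) ∧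
            {R : Place (ssgfE0 A E) (modularFunctionFieldFullC (ssgfE0 A E) (M * q)) |
              R.ord f ≠ 0}.Finite ∧
            (letI := (ssvmdIncl (ssgfE0 A E) M q).toRingHom.toAlgebra
             Algebra.norm (modularFunctionFieldFullC (ssgfE0 A E) M) f) =
              ((q : ℕ) : modularFunctionFieldFullC (ssgfE0 A E) M) ^ mα * gα ^ n ∧
            (letI := (ssvmfPhi (ssgfE0 A E) M q).toAlgebra
             Algebra.norm (modularFunctionFieldFullC (ssgfE0 A E) M) f) =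
              ((q : ℕ) : modularFunctionFieldFullC (ssgfE0 A E) M) ^ mφ * gφ ^ n := by
  classical
  haveI halg : Algebra.IsAlgebraic ℚ Qb := AlgebraicClosure.isAlgebraic ℚ
  haveI hcl : IsAlgClosure ℚ Qb := AlgebraicClosure.instIsAlgClosure ℚ
  haveI hnormQb : Normal ℚ Qb := IsAlgClosure.normal ℚ Qb
  -- Step 0 : the Kummer function over `ℚ̄` with both norms `n`-th powers
  obtain ⟨D, fb, vα, vβ, hxD, hfb0, hvα0, hvβ0, hDf, hNα, hNβ⟩ :=
    s35w_new_kummer M q (Nat.pos_of_ne_zero hn) x hx hα hβ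
  have hfbD : ∀ v : Place Qb (modularFunctionFieldBar (M * q)),
      v.ord fb = (n : ℤ) * (D : Divisor Qb (modularFunctionFieldBar (M * q))) v :=
    fun v => (hDf v).symm
  -- Step 1 : an inertia-fixed Kummer function
  obtain ⟨E₁, hE₁, hdesc⟩ := sqd_descend A (M * q) n hn fb hfb0 (fun R => ⟨_, hfbD R⟩)
    (fun σ hσ => sqd_hfix_of_class (M * q) σ D n hn fb hfb0 hfbD (by rw [← hxD]; exact hfix σ hσ))
  haveI := hE₁
  obtain ⟨Ea, hEadef⟩ : ∃ Ea : IntermediateField ℚ Qb,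
      Ea = IntermediateField.normalClosure ℚ E₁ Qb := ⟨_, rfl⟩
  have hE₁Ea : E₁ ≤ Ea := hEadef ▸ IntermediateField.le_normalClosure E₁
  haveI hfda : FiniteDimensional ℚ Ea := by
    rw [hEadef]; exact normalClosure.is_finiteDimensional ℚ E₁ Qb
  haveI hna : Normal ℚ Ea := by
    rw [hEadef]; exact normalClosure.normal ℚ E₁ Qb
  obtain ⟨fa, hfa0, ⟨b, c, hb0, hc0, hfa⟩, -⟩ := hdesc Ea hE₁Ea
  obtain ⟨Fb, hFb⟩ : ∃ Fb, Fb = ssdUp (ssgfE0 A Ea) (M * q) fa := ⟨_, rfl⟩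
  have hFb0 : Fb ≠ 0 := by
    rw [hFb]; exact (map_ne_zero_iff _ (ssdUp_injective (ssgfE0 A Ea) (M * q))).2 hfa0
  have hFbfix : ∀ σ ∈ A.inertiaSubgroupIn ℚ, ssGal (M * q) σ Fb = Fb := fun σ hσ => by
    rw [hFb]; exact sqdn_up_fixed A (M * q) Ea fa σ hσ
  have hFbeq : Fb = algebraMap Qb (modularFunctionFieldBar (M * q)) c * fb * b ^ n := by
    rw [hFb, hfa]
  -- Step 2 : the divisor of `Fb`
  haveI := gff_hasPrincipalDivisors (M * q)
  obtain ⟨Db, hDb, hDbdeg⟩ := HasPrincipalDivisors.exists_divisor (K := Qb) b hb0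
  obtain ⟨D', hD'⟩ : ∃ D' : Divisor.degZero (K := Qb) (F := modularFunctionFieldBar (M * q)),
      D' = D + ⟨Db, hDbdeg⟩ := ⟨_, rfl⟩
  have hxD' : x = Pic0.mk D' := by
    rw [hD', Pic0.mk_add, ← hxD]
    have h0 : Pic0.mk (⟨Db, hDbdeg⟩ :
        Divisor.degZero (K := Qb) (F := modularFunctionFieldBar (M * q))) = 0 := by
      refine (QuotientAddGroup.eq_zero_iff _).2 ?_
      rw [AddSubgroup.mem_addSubgroupOf]
      exact ⟨b, hb0, hDb⟩
    rw [h0, add_zero]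
  have hac0 : algebraMap Qb (modularFunctionFieldBar (M * q)) c ≠ 0 := by
    rw [Ne, map_eq_zero]; exact hc0
  have hFbD : ∀ w : Place Qb (modularFunctionFieldBar (M * q)),
      w.ord Fb = (n : ℤ) * (D' : Divisor Qb (modularFunctionFieldBar (M * q))) w := by
    intro w
    rw [hFbeq, w.ord_mul (mul_ne_zero hac0 hfb0) (pow_ne_zero n hb0), w.ord_mul hac0 hfb0,
      PlaceOrd.ord_algebraMap, zero_add, ← zpow_natCast, w.ord_zpow, hfbD w, hD']
    simp only [AddSubgroup.coe_add, Finsupp.coe_add, Pi.add_apply]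
    rw [hDb w]
    ring
  refine ⟨D', Fb, ?_⟩
  -- Step 3 : the two norms over `ℚ̄`
  haveI hfinα : FiniteAlong Qb (heckeAlphaBar Qb M q) := gff_alpha_finite M q
  haveI hfinβ : FiniteAlong Qb (heckeBetaBar Qb M q) := gff_beta_finite M q
  obtain ⟨yα, hyα⟩ : ∃ y, y = (letI := algebraAlong (heckeAlphaBar Qb M q)
      Algebra.norm (modularFunctionFieldBar M) Fb) := ⟨_, rfl⟩
  obtain ⟨yβ, hyβ⟩ : ∃ y, y = (letI := algebraAlong (heckeBetaBar Qb M q)
      Algebra.norm (modularFunctionFieldBar M) Fb) := ⟨_, rfl⟩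
  have hyα0 : yα ≠ 0 := by
    rw [hyα]; exact sqdn_norm_ne_zero (heckeAlphaBar Qb M q) hfinα hFb0
  have hyβ0 : yβ ≠ 0 := by
    rw [hyβ]; exact sqdn_norm_ne_zero (heckeBetaBar Qb M q) hfinβ hFb0
  have hyαup : yα = ssdUp (ssgfE0 A Ea) M
      (letI := (ssvmdIncl (ssgfE0 A Ea) M q).toRingHom.toAlgebra
       Algebra.norm (modularFunctionFieldFullC (ssgfE0 A Ea) M) fa) := by
    rw [hyα, hFb]; exact (s35wd_up_norm_alpha (ssgfE0 A Ea) M q fa).symm
  have hyβup : yβ = ssdUp (ssgfE0 A Ea) M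
      (letI := (ssvmfPhi (ssgfE0 A Ea) M q).toAlgebra
       Algebra.norm (modularFunctionFieldFullC (ssgfE0 A Ea) M) fa) := by
    rw [hyβ, hFb]; exact (s35wd_up_norm_beta (ssgfE0 A Ea) M q fa).symm
  have hyαfix : ∀ σ ∈ A.inertiaSubgroupIn ℚ, ssGal M σ yα = yα := fun σ hσ => by
    rw [hyαup]; exact sqdn_up_fixed A M Ea _ σ hσ
  have hyβfix : ∀ σ ∈ A.inertiaSubgroupIn ℚ, ssGal M σ yβ = yβ := fun σ hσ => by
    rw [hyβup]; exact sqdn_up_fixed A M Ea _ σ hσ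
  have hyαroot := sqdn_norm_kummer (heckeAlphaBar Qb M q) n c fb b vα hNα
  have hyβroot := sqdn_norm_kummer (heckeBetaBar Qb M q) n c fb b vβ hNβ
  rw [← hFbeq, ← hyα] at hyαroot
  rw [← hFbeq, ← hyβ] at hyβroot
  obtain ⟨Gα, mα, hGα0, hGαfix, hyαG⟩ :=
    sqdn_root_normal A M hq hA n hn hqn yα _ _ hyα0 hyαfix hyαroot
  obtain ⟨Gβ, mφ, hGβ0, hGβfix, hyβG⟩ :=
    sqdn_root_normal A M hq hA n hn hqn yβ _ _ hyβ0 hyβfix hyβroot
  refine ⟨mα, mφ, hxD', hFb0, hFbD, ?_⟩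
  -- Step 4 : the models
  obtain ⟨E₂, hE₂, hmodF⟩ := sqd_model_fixed A (M * q) Fb hFbfix
  obtain ⟨E₃, hE₃, hmodα⟩ := sqd_model_fixed A M Gα hGαfix
  obtain ⟨E₄, hE₄, hmodβ⟩ := sqd_model_fixed A M Gβ hGβfix
  obtain ⟨E₅, hE₅, hdescF⟩ := ssd_descend (M * q) n Fb hFb0 (fun R => ⟨_, hFbD R⟩)
  haveI := hE₂
  haveI := hE₃
  haveI := hE₄
  haveI := hE₅
  haveI : FiniteDimensional ℚ (E₂ ⊔ E₃ : IntermediateField ℚ Qb) :=
    IntermediateField.finiteDimensional_sup _ _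
  haveI : FiniteDimensional ℚ (E₂ ⊔ E₃ ⊔ E₄ : IntermediateField ℚ Qb) :=
    IntermediateField.finiteDimensional_sup _ _
  refine ⟨E₂ ⊔ E₃ ⊔ E₄ ⊔ E₅, IntermediateField.finiteDimensional_sup _ _, fun E _ _ hE => ?_⟩
  have hE₂E : E₂ ≤ E := (le_sup_left.trans (le_sup_left.trans le_sup_left)).trans hE
  have hE₃E : E₃ ≤ E := (le_sup_right.trans (le_sup_left.trans le_sup_left)).trans hE
  have hE₄E : E₄ ≤ E := (le_sup_right.trans le_sup_left).trans hE
  have hE₅E : E₅ ≤ E := le_sup_right.trans hE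
  obtain ⟨f, hf⟩ := hmodF E hE₂E
  obtain ⟨gα, hgα⟩ := hmodα E hE₃E
  obtain ⟨gφ, hgφ⟩ := hmodβ E hE₄E
  obtain ⟨gE, hgE, hgEdiv, -, -⟩ := hdescF E hE₅E
  have hf0 : f ≠ 0 := by
    rintro rfl
    rw [map_zero] at hf
    exact hFb0 hf.symm
  have hgα0 : gα ≠ 0 := by
    rintro rfl
    rw [map_zero] at hgα
    exact hGα0 hgα.symm
  have hgφ0 : gφ ≠ 0 := by
    rintro rfl
    rw [map_zero] at hgφ
    exact hGβ0 hgφ.symm
  have hιf : ssgfIota A E (M * q) f = gE := by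
    apply ssdUp_injective E (M * q)
    rw [sqd_up_iota, hf, hgE]
  refine ⟨f, gα, gφ, hf, hf0, hgα0, hgφ0, fun R₀ => ?_, ?_, ?_, ?_⟩
  · obtain ⟨R, hR⟩ := sqdp_exists_above A E (M * q) R₀
    rw [← hR f, hιf]
    exact hgEdiv R
  · -- finiteness of the support
    have hfin : {v : Place Qb (modularFunctionFieldBar (M * q)) | v.ord Fb ≠ 0}.Finite :=
      (isSepGen_jBar (M * q)).finite_ord_ne_zero hFb0
    let res : Place Qb (modularFunctionFieldBar (M * q)) →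
        Place (ssgfE0 A E) (modularFunctionFieldFullC (ssgfE0 A E) (M * q)) :=
      fun R' => (ssd_restrict (ssgfE0 A E) (M * q) R').choose
    have hres : ∀ R', (res R').toValuationSubring =
        R'.toValuationSubring.comap (ssdUp (ssgfE0 A E) (M * q)) := fun R' =>
      (ssd_restrict (ssgfE0 A E) (M * q) R').choose_spec.choose_spec.2.1
    refine (hfin.toFinset.finite_toSet.image res).subset fun R₀ hR0 => ?_
    obtain ⟨R', hR'⟩ := ssd_extend (ssgfE0 A E) (M * q) R₀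
    obtain ⟨R₁, r, hr, hR₁, hord⟩ := ssd_restrict (ssgfE0 A E) (M * q) R'
    have hRR : R₁ = R₀ := Place.ext (hR₁.trans hR')
    subst hRR
    have h1 : R'.ord Fb = r * R₁.ord f := by rw [← hf]; exact hord f
    have hmem : R' ∈ hfin.toFinset := by
      rw [Set.Finite.mem_toFinset, Set.mem_ofPred_eq, h1]
      exact mul_ne_zero (by exact_mod_cast hr.ne') hR0
    exact ⟨R', hmem, Place.ext ((hres R').trans hR')⟩
  · apply ssdUp_injective (ssgfE0 A E) M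
    rw [s35wd_up_norm_alpha (ssgfE0 A E) M q f, hf, ← hyα, hyαG, map_mul, map_zpow₀, map_natCast,
      map_pow, hgα]
  · apply ssdUp_injective (ssgfE0 A E) M
    rw [s35wd_up_norm_beta (ssgfE0 A E) M q f, hf, ← hyβ, hyβG, map_mul, map_zpow₀, map_natCast,
      map_pow, hgφ]


/-- **THE NORMALISED NEW KUMMER DATUM OVER THE INERTIA FIELD** (the shape consumed by `SQ/Core`). -/
theorem sqd_descend_new {q : ℕ} (hq : q.Prime) (hA : A.LiesOverPrime q) (M : ℕ) [NeZero M]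
    [NeZero q] (n : ℕ) (hn : n ≠ 0) (hqn : ¬ q ∣ n) (x : JZero (M * q)) (hx : n • x = 0)
    (hfix : ∀ σ ∈ A.inertiaSubgroupIn ℚ, σ • x = x)
    (hα : g37pPush M q x = 0) (hβ : s35wPushBeta M q x = 0) :
    ∃ E₁ : IntermediateField ℚ Qb, FiniteDimensional ℚ E₁ ∧
      ∀ (E : IntermediateField ℚ Qb) [FiniteDimensional ℚ E] [Normal ℚ E], E₁ ≤ E →
        ∃ (D : Divisor.degZero (K := Qb) (F := modularFunctionFieldBar (M * q)))
          (f : modularFunctionFieldFullC (ssgfE0 A E) (M * q))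
          (gα gφ : modularFunctionFieldFullC (ssgfE0 A E) M) (mα mφ : ℤ),
          x = Pic0.mk D ∧ f ≠ 0 ∧ gα ≠ 0 ∧ gφ ≠ 0 ∧
          (∀ w : Place Qb (modularFunctionFieldBar (M * q)),
            w.ord (ssdUp (ssgfE0 A E) (M * q) f) =
              (n : ℤ) * (D : Divisor Qb (modularFunctionFieldBar (M * q))) w) ∧
          (∀ R : Place (ssgfE0 A E) (modularFunctionFieldFullC (ssgfE0 A E) (M * q)),
            (n : ℤ) ∣ R.ord f) ∧
          {R : Place (ssgfE0 A E) (modularFunctionFieldFullC (ssgfE0 A E) (M * q)) |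
            R.ord f ≠ 0}.Finite ∧
          (letI := (ssvmdIncl (ssgfE0 A E) M q).toRingHom.toAlgebra
           Algebra.norm (modularFunctionFieldFullC (ssgfE0 A E) M) f) =
            ((q : ℕ) : modularFunctionFieldFullC (ssgfE0 A E) M) ^ mα * gα ^ n ∧
          (letI := (ssvmfPhi (ssgfE0 A E) M q).toAlgebra
           Algebra.norm (modularFunctionFieldFullC (ssgfE0 A E) M) f) =
            ((q : ℕ) : modularFunctionFieldFullC (ssgfE0 A E) M) ^ mφ * gφ ^ n := by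
  obtain ⟨D, Fb, mα, mφ, hxD, hFb0, hFbD, E₁, hE₁, h⟩ :=
    sqd_descend_new_strong A hq hA M n hn hqn x hx hfix hα hβ
  refine ⟨E₁, hE₁, fun E _ _ hE => ?_⟩
  obtain ⟨f, gα, gφ, hf, hf0, hgα0, hgφ0, hdiv, hfin, hNα, hNφ⟩ := h E hE
  exact ⟨D, f, gα, gφ, mα, mφ, hxD, hf0, hgα0, hgφ0, fun w => by rw [hf]; exact hFbD w, hdiv, hfin,
    hNα, hNφ⟩

end Fermat.Agent.SQ
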