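import Mathlib
import Fermat.Agent.SQ.Descend.Inertia
import Fermat.Agent.G.Unr.Cyc
import Fermat.Agent.S18.Core.Spec

/-!
# Program Q (S36), (C4) descent, (R-3) : EVEN RESIDUE DEGREE (prefix `sqde`)

`𝔸 ⊂ ℚ̄` a valuation subring over `q`, `E / ℚ` finite, `E₀ = ssgfE0 𝔸 E = E^{I_𝔸}`,
`B = s18dVal 𝔸 E₀` the discrete valuation ring of `E₀` (in which `q` is a uniformiser, see
`sqdi_irreducible`).  If `E` contains a primitive `(q² − 1)`-th root of unity then the residue field
of `B` has `q^{2f}` elements, `0 < f` :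

* `sqde_even_of_dvd`, `sqde_card_even` (Mathlib only) : `(q² − 1) ∣ q^d − 1` forces `d` even;
* `sqde_residue_surjective`, `sqde_finite_residue` (abstract) : the residue field of a valuation
  subring `V` over `q` of a number field is a quotient of `𝓞 K`, hence finite;
* `sqde_card_of_root` (abstract) : `V` over `q`, `ζ ∈ K` primitive of order `q² − 1`
  ⟹ `|k(V)| = q^{2f}` (the residue of `ζ` has exact order `q² − 1` since the `1 − ζ^m` are units);
* **`sqde_card`** : the statement for `B` ; **`sqde_even`** : the form `∃ E₂, ∀ E ⊇ E₂, …`;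
* consumer forms `sqde_pow_card_sub` (`ϖ ∣ a^{|k|} − a`), `sqde_exists_of_pow_card`
  (solutions of `x^{|k|} = x` in a field over `B/𝔪` are residues of elements of `B`), and their
  instances `sqde_frob_trivial`, `sqde_residue_rational` for `B`.
-/

set_option autoImplicit false
set_option linter.unusedSectionVars false
set_option linter.unusedVariables false
set_option linter.style.haveILetI false

open NumberField Polynomial

noncomputable section

namespace Fermat.Agent.SQ

/-! ### arithmetic -/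

/-- `(q² − 1) ∣ q^d − 1` forces `d` even. -/
theorem sqde_even_of_dvd {q d : ℕ} (hq : 2 ≤ q) (h : q ^ 2 - 1 ∣ q ^ d - 1) : Even d := by
  by_contra hodd
  rw [Nat.not_even_iff_odd] at hodd
  obtain ⟨m, rfl⟩ := hodd
  -- q^(2m+1) - 1 = q (q^(2m) - 1) + (q - 1)
  have h1 : q ^ 2 - 1 ∣ (q ^ 2) ^ m - 1 := Nat.sub_one_dvd_pow_sub_one (q ^ 2) m
  have hpos : 1 ≤ (q ^ 2) ^ m := Nat.one_le_pow _ _ (by positivity)
  have h2 : q ^ (2 * m + 1) - 1 = q * ((q ^ 2) ^ m - 1) + (q - 1) := by
    have : q ^ (2 * m + 1) = q * (q ^ 2) ^ m := by rw [pow_succ, pow_mul]; ring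
    rw [this]
    have hq1 : 1 ≤ q := by omega
    zify [hpos, hq1, Nat.one_le_iff_ne_zero.mpr (Nat.mul_ne_zero (by omega : q ≠ 0) (by positivity : (q ^ 2) ^ m ≠ 0))]
    ring
  rw [h2] at h
  have h3 : q ^ 2 - 1 ∣ q - 1 := (Nat.dvd_add_right (Dvd.dvd.mul_left h1 q)).mp h
  have h4 : q ^ 2 - 1 ≤ q - 1 := Nat.le_of_dvd (by omega) h3
  have h5 : q * 2 ≤ q ^ 2 := by rw [pow_two]; exact Nat.mul_le_mul_left q hq
  omega

/-- a finite field of characteristic `q` containing an element of multiplicative order `q² − 1`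
has `q^{2f}` elements. -/
theorem sqde_card_even {k : Type*} [Field k] [Finite k] {q : ℕ} (hq : q.Prime) [CharP k q]
    (x : k) (hx : orderOf x = q ^ 2 - 1) : ∃ f : ℕ, 0 < f ∧ Nat.card k = q ^ (2 * f) := by
  classical
  haveI : Fintype k := Fintype.ofFinite k
  obtain ⟨d, -, hd⟩ := FiniteField.card k q
  rw [← Nat.card_eq_fintype_card] at hd
  have hq2 : 2 ≤ q := hq.two_le
  have hn1 : 1 < q ^ 2 - 1 := by
    have : q * 2 ≤ q ^ 2 := by rw [pow_two]; exact Nat.mul_le_mul_left q hq2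
    omega
  have hx0 : x ≠ 0 := by
    intro h
    rw [h, orderOf_zero] at hx
    omega
  have hord : orderOf (Units.mk0 x hx0) = q ^ 2 - 1 := by
    rw [← hx, ← orderOf_units]
    rfl
  have hdvd : q ^ 2 - 1 ∣ q ^ (d : ℕ) - 1 := by
    rw [← hord, ← hd, ← Nat.card_units]
    exact orderOf_dvd_natCard _
  obtain ⟨f, hf⟩ := sqde_even_of_dvd hq2 hdvd
  refine ⟨f, ?_, ?_⟩
  · have := d.pos
    omega
  · rw [hd, hf, two_mul]

/-! ### the residue field of a valuation subring of a number field is finite -/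

/-- the ring homomorphism `𝓞 K → V` -/
def sqdeInt {K : Type*} [Field K] [NumberField K] (V : ValuationSubring K) : 𝓞 K →+* V where
  toFun x := ⟨(x : K), sqdi_integer_mem V x⟩
  map_one' := Subtype.ext (by simp)
  map_mul' a b := Subtype.ext (by simp)
  map_zero' := Subtype.ext (by simp)
  map_add' a b := Subtype.ext (by simp)

theorem sqdeInt_coe {K : Type*} [Field K] [NumberField K] (V : ValuationSubring K) (x : 𝓞 K) :
    ((sqdeInt V x : V) : K) = (x : K) := rfl

/-- the residue map `𝓞 K → k(V)` is onto, for `V` over a prime `q`. -/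
theorem sqde_residue_surjective {K : Type*} [Field K] [NumberField K] (V : ValuationSubring K)
    {q : ℕ} (hq : q.Prime) (hqV : ((q : ℕ) : K) ∈ V.nonunits) :
    Function.Surjective ((IsLocalRing.residue V).comp (sqdeInt V)) := by
  classical
  set φ : 𝓞 K →+* IsLocalRing.ResidueField V := (IsLocalRing.residue V).comp (sqdeInt V) with hφ
  set p : Ideal (𝓞 K) := RingHom.ker φ with hp
  haveI hpp : p.IsPrime := RingHom.ker_isPrime φ
  have hmem : ∀ x : 𝓞 K, x ∈ p ↔ (x : K) ∈ V.nonunits := by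
    intro x
    rw [hp, RingHom.mem_ker, hφ, RingHom.comp_apply, IsLocalRing.residue_eq_zero_iff,
      ← ValuationSubring.coe_mem_nonunits_iff]
    rfl
  have hqp : ((q : ℕ) : 𝓞 K) ∈ p := by
    rw [hmem]
    have : ((((q : ℕ) : 𝓞 K)) : K) = ((q : ℕ) : K) := by simp
    rw [this]; exact hqV
  have hq0 : ((q : ℕ) : 𝓞 K) ≠ 0 := by exact_mod_cast hq.ne_zero
  have hp0 : p ≠ ⊥ := by
    intro h
    rw [h, Ideal.mem_bot] at hqp
    exact hq0 hqp
  have hpmax : p.IsMaximal := Ideal.IsPrime.isMaximal inferInstance hp0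
  intro y
  obtain ⟨x, rfl⟩ := IsLocalRing.residue_surjective y
  obtain ⟨a, s, hs, hxs⟩ := sqdi_exists_frac V p hp0 hmem (x : K) x.2
  obtain ⟨r, i, hi, hri⟩ := hpmax.exists_inv hs
  refine ⟨a * r, ?_⟩
  have h1 : x * sqdeInt V s = sqdeInt V a := Subtype.ext hxs
  have h2 : φ i = 0 := hi
  have h3 : φ r * φ s = 1 := by
    have := congrArg φ hri
    rw [map_add, map_mul, h2, add_zero, map_one] at this
    exact this
  have h4 : φ a = IsLocalRing.residue V x * φ s := by
    show IsLocalRing.residue V (sqdeInt V a) = _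
    rw [← h1, map_mul]
    rfl
  rw [map_mul, h4, mul_assoc, mul_comm (φ s), h3, mul_one]

/-- the residue field of a valuation subring of a number field over a prime `q` is finite. -/
theorem sqde_finite_residue {K : Type*} [Field K] [NumberField K] (V : ValuationSubring K)
    {q : ℕ} (hq : q.Prime) (hqV : ((q : ℕ) : K) ∈ V.nonunits) :
    Finite (IsLocalRing.ResidueField V) := by
  classical
  set φ : 𝓞 K →+* IsLocalRing.ResidueField V := (IsLocalRing.residue V).comp (sqdeInt V) with hφ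
  haveI hpp : (RingHom.ker φ).IsPrime := RingHom.ker_isPrime φ
  have hq0 : ((q : ℕ) : 𝓞 K) ≠ 0 := by exact_mod_cast hq.ne_zero
  have hqp : ((q : ℕ) : 𝓞 K) ∈ RingHom.ker φ := by
    rw [RingHom.mem_ker, hφ, RingHom.comp_apply, IsLocalRing.residue_eq_zero_iff,
      ← ValuationSubring.coe_mem_nonunits_iff]
    have : (((sqdeInt V ((q : ℕ) : 𝓞 K)) : V) : K) = ((q : ℕ) : K) := by
      rw [sqdeInt_coe]; simp
    rw [this]; exact hqV
  have hp0 : RingHom.ker φ ≠ ⊥ := by
    intro h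
    rw [h, Ideal.mem_bot] at hqp
    exact hq0 hqp
  haveI hpmax : (RingHom.ker φ).IsMaximal := Ideal.IsPrime.isMaximal inferInstance hp0
  haveI : Finite (𝓞 K ⧸ RingHom.ker φ) := inferInstance
  exact Finite.of_surjective (Ideal.Quotient.lift (RingHom.ker φ) φ (fun a ha => ha))
    (Ideal.Quotient.lift_surjective_of_surjective _ _ (sqde_residue_surjective V hq hqV))

/-- the residue field of a valuation subring over `q` has characteristic `q` -/
theorem sqde_charP {K : Type*} [Field K] (V : ValuationSubring K)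
    {q : ℕ} (hq : q.Prime) (hqV : ((q : ℕ) : K) ∈ V.nonunits) :
    CharP (IsLocalRing.ResidueField V) q := by
  haveI : Fact q.Prime := ⟨hq⟩
  have h0 : ((q : ℕ) : IsLocalRing.ResidueField V) = 0 := by
    have h1 : ((q : ℕ) : IsLocalRing.ResidueField V) = IsLocalRing.residue V ((q : ℕ) : V) := by
      rw [map_natCast]
    rw [h1, IsLocalRing.residue_eq_zero_iff, ← ValuationSubring.coe_mem_nonunits_iff]
    have : ((((q : ℕ) : V)) : K) = ((q : ℕ) : K) := by simp
    rw [this]; exact hqV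
  exact (CharP.charP_iff_prime_eq_zero hq).mpr h0

/-- **abstract form** : a valuation subring `V` over `q` of a number field containing a primitive
`(q² − 1)`-th root of unity has residue field with `q^{2f}` elements. -/
theorem sqde_card_of_root {K : Type*} [Field K] [NumberField K] (V : ValuationSubring K)
    {q : ℕ} (hq : q.Prime) (hqV : ((q : ℕ) : K) ∈ V.nonunits) (ζ : K)
    (hζ : IsPrimitiveRoot ζ (q ^ 2 - 1)) :
    ∃ f : ℕ, 0 < f ∧ Nat.card (IsLocalRing.ResidueField V) = q ^ (2 * f) := by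
  classical
  haveI := sqde_finite_residue V hq hqV
  haveI := sqde_charP V hq hqV
  have hq2 : 2 ≤ q := hq.two_le
  have hqq : q * 2 ≤ q ^ 2 := by rw [pow_two]; exact Nat.mul_le_mul_left q hq2
  have hn0 : q ^ 2 - 1 ≠ 0 := by omega
  have hnq : ¬ q ∣ q ^ 2 - 1 := by
    intro h
    have h1 : q ∣ q ^ 2 := dvd_pow_self q (by norm_num)
    have h2 : q ∣ q ^ 2 - (q ^ 2 - 1) := Nat.dvd_sub h1 h
    have h3 : q ^ 2 - (q ^ 2 - 1) = 1 := by omega
    rw [h3] at h2
    exact hq.one_lt.ne' (Nat.dvd_one.mp h2)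
  have hA : V.LiesOverPrime q := hqV
  have hvζ : V.valuation ζ = 1 := Fermat.Agent.G.guny_valuation_eq_one V hn0 hζ.pow_eq_one
  have hζV : ζ ∈ V := (V.valuation_le_one_iff ζ).1 hvζ.le
  refine sqde_card_even hq (IsLocalRing.residue V ⟨ζ, hζV⟩) ?_
  rw [orderOf_eq_iff (by omega)]
  refine ⟨?_, ?_⟩
  · rw [← map_pow]
    have : (⟨ζ, hζV⟩ : V) ^ (q ^ 2 - 1) = 1 := Subtype.ext (by simpa using hζ.pow_eq_one)
    rw [this, map_one]
  · intro m hm hm0 h1
    have hne : ζ ^ m ≠ 1 := hζ.pow_ne_one_of_pos_of_lt hm0.ne' hm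
    have hpow : (ζ ^ m) ^ (q ^ 2 - 1) = 1 := by
      rw [← pow_mul, mul_comm, pow_mul, hζ.pow_eq_one, one_pow]
    have hv := Fermat.Agent.G.guny_valuation_one_sub hq hnq V hA hpow hne
    have h2 : IsLocalRing.residue V (1 - (⟨ζ, hζV⟩ : V) ^ m) = 0 := by
      rw [map_sub, map_one, map_pow, h1, sub_self]
    rw [IsLocalRing.residue_eq_zero_iff, ← ValuationSubring.coe_mem_nonunits_iff,
      ValuationSubring.mem_nonunits_iff] at h2
    have h3 : (((1 - (⟨ζ, hζV⟩ : V) ^ m : V)) : K) = 1 - ζ ^ m := by simp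
    rw [h3, hv] at h2
    exact lt_irrefl _ h2

/-! ### consumer forms -/

/-- consumer form (i) : `a ^ |k| ≡ a` modulo the uniformiser. -/
theorem sqde_pow_card_sub {B : Type*} [CommRing B] [IsLocalRing B]
    [Finite (IsLocalRing.ResidueField B)] {ϖ : B}
    (hϖ : IsLocalRing.maximalIdeal B = Ideal.span {ϖ}) (a : B) :
    ϖ ∣ a ^ Nat.card (IsLocalRing.ResidueField B) - a := by
  classical
  haveI : Fintype (IsLocalRing.ResidueField B) := Fintype.ofFinite _
  rw [← Ideal.mem_span_singleton, ← hϖ, ← IsLocalRing.residue_eq_zero_iff, map_sub, map_pow,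
    Nat.card_eq_fintype_card, FiniteField.pow_card, sub_self]

/-- consumer form (ii) : in any field `K` receiving `B / 𝔪`, the solutions of `x ^ |k| = x` are
exactly the residues of elements of `B`. -/
theorem sqde_exists_of_pow_card {B : Type*} [CommRing B] [IsLocalRing B]
    [Finite (IsLocalRing.ResidueField B)] {K : Type*} [Field K] (φ : B →+* K)
    (hφ : ∀ a ∈ IsLocalRing.maximalIdeal B, φ a = 0) (x : K)
    (hx : x ^ Nat.card (IsLocalRing.ResidueField B) = x) : ∃ a : B, φ a = x := by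
  classical
  haveI : Fintype (IsLocalRing.ResidueField B) := Fintype.ofFinite _
  set N := Nat.card (IsLocalRing.ResidueField B) with hN
  have hNc : N = Fintype.card (IsLocalRing.ResidueField B) := Nat.card_eq_fintype_card
  have hN1 : 1 < N := by rw [hNc]; exact Fintype.one_lt_card
  set ψ : IsLocalRing.ResidueField B →+* K :=
    Ideal.Quotient.lift (IsLocalRing.maximalIdeal B) φ hφ with hψ
  have hψres : ∀ a : B, ψ (IsLocalRing.residue B a) = φ a := fun a => rfl
  have hψinj : Function.Injective ψ := ψ.injective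
  set S : Finset K := Finset.univ.image ψ with hS
  have hScard : S.card = N := by
    rw [hS, Finset.card_image_of_injective _ hψinj, Finset.card_univ, hNc]
  set P : K[X] := X ^ N - X with hP
  have hdeg : P.natDegree = N := FiniteField.X_pow_card_sub_X_natDegree_eq K hN1
  have hP0 : P ≠ 0 := by
    intro h
    rw [h, natDegree_zero] at hdeg
    omega
  have hsub : S ⊆ P.roots.toFinset := by
    intro y hy
    rw [hS, Finset.mem_image] at hy
    obtain ⟨z, -, rfl⟩ := hy
    rw [Multiset.mem_toFinset, mem_roots hP0, IsRoot.def, hP, eval_sub, eval_pow, eval_X,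
      ← map_pow, hNc, FiniteField.pow_card, sub_self]
  have hle : P.roots.toFinset.card ≤ S.card := by
    rw [hScard]
    calc P.roots.toFinset.card ≤ P.roots.card := Multiset.toFinset_card_le _
      _ ≤ P.natDegree := card_roots' P
      _ = N := hdeg
  have heq := Finset.eq_of_subset_of_card_le hsub hle
  have hxroot : x ∈ P.roots.toFinset := by
    rw [Multiset.mem_toFinset, mem_roots hP0, IsRoot.def, hP, eval_sub, eval_pow, eval_X, hx,
      sub_self]
  rw [← heq, hS, Finset.mem_image] at hxroot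
  obtain ⟨z, -, hz⟩ := hxroot
  obtain ⟨a, rfl⟩ := IsLocalRing.residue_surjective z
  exact ⟨a, by rw [← hψres, hz]⟩

/-! ### the inertia field -/

open Fermat.Agent.SS Fermat.Agent.S18 Fermat.Agent.S55

local notation "Qb" => AlgebraicClosure ℚ

theorem sqde_not_dvd {q : ℕ} (hq : q.Prime) : ¬ q ∣ q ^ 2 - 1 := by
  intro h
  have hq2 : 2 ≤ q := hq.two_le
  have hqq : q * 2 ≤ q ^ 2 := by rw [pow_two]; exact Nat.mul_le_mul_left q hq2
  have h1 : q ∣ q ^ 2 := dvd_pow_self q (by norm_num)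
  have h2 : q ∣ q ^ 2 - (q ^ 2 - 1) := Nat.dvd_sub h1 h
  have h3 : q ^ 2 - (q ^ 2 - 1) = 1 := by omega
  rw [h3] at h2
  exact hq.one_lt.ne' (Nat.dvd_one.mp h2)

/-- `q` lies in the maximal ideal of `𝔸 ∩ E'`, any `E'`. -/
theorem sqde_q_mem (A : ValuationSubring Qb) {q : ℕ} (hA : A.LiesOverPrime q)
    (E' : IntermediateField ℚ Qb) : ((q : ℕ) : E') ∈ (s18dVal A E').nonunits := by
  rw [sstr_mem_nonunits_dVal]
  have : ((((q : ℕ) : E')) : Qb) = ((q : ℕ) : Qb) := by simp
  rw [this]; exact hA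

/-- **EVEN RESIDUE DEGREE** : if `E` contains a primitive `(q² − 1)`-th root of unity then the
residue field of `𝔸 ∩ E₀`, `E₀ = E^{I_𝔸}`, has `q^{2f}` elements. -/
theorem sqde_card (A : ValuationSubring Qb) {q : ℕ} (hq : q.Prime) (hA : A.LiesOverPrime q)
    (E : IntermediateField ℚ Qb) [FiniteDimensional ℚ E] (ζ : Qb)
    (hζ : IsPrimitiveRoot ζ (q ^ 2 - 1)) (hζE : ζ ∈ E) :
    ∃ f : ℕ, 0 < f ∧
      Nat.card (IsLocalRing.ResidueField ↥(s18dVal A (ssgfE0 A E))) = q ^ (2 * f) := by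
  classical
  haveI : NumberField (ssgfE0 A E) :=
    { to_charZero := inferInstance, to_finiteDimensional := inferInstance }
  have hmem : ζ ∈ ssgfE0 A E := by
    rw [mem_ssgfE0]
    exact ⟨hζE, fun σ hσ =>
      Fermat.Agent.G.gun_cyc_inertia hq (sqde_not_dvd hq) A hA σ hσ ζ hζ.pow_eq_one⟩
  have hζ₀ : IsPrimitiveRoot (⟨ζ, hmem⟩ : ssgfE0 A E) (q ^ 2 - 1) := by
    refine IsPrimitiveRoot.of_map_of_injective (f := algebraMap (ssgfE0 A E) Qb) ?_
      (algebraMap (ssgfE0 A E) Qb).injective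
    exact hζ
  exact sqde_card_of_root (s18dVal A (ssgfE0 A E)) hq (sqde_q_mem A hA _) _ hζ₀

/-- a primitive `(q² − 1)`-th root of unity of `ℚ̄` -/
theorem sqde_exists_root (q : ℕ) (hq : q.Prime) : ∃ ζ : Qb, IsPrimitiveRoot ζ (q ^ 2 - 1) := by
  have hq2 : 2 ≤ q := hq.two_le
  have hqq : q * 2 ≤ q ^ 2 := by rw [pow_two]; exact Nat.mul_le_mul_left q hq2
  haveI : NeZero (((q ^ 2 - 1 : ℕ)) : Qb) := ⟨by
    rw [Ne, Nat.cast_eq_zero]; omega⟩
  haveI := IsSepClosed.hasEnoughRootsOfUnity Qb (q ^ 2 - 1)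
  exact HasEnoughRootsOfUnity.exists_primitiveRoot Qb (q ^ 2 - 1)

/-- **(R-3)** : there is a finite `E₂ / ℚ` (namely `ℚ(ζ_{q²−1})`) such that for every finite
`E ⊇ E₂` the residue field of `𝔸 ∩ E₀`, `E₀ = E^{I_𝔸}`, has `q^{2f}` elements, `0 < f`. -/
theorem sqde_even (A : ValuationSubring Qb) {q : ℕ} (hq : q.Prime) (hA : A.LiesOverPrime q) :
    ∃ E₂ : IntermediateField ℚ Qb, FiniteDimensional ℚ E₂ ∧
      ∀ (E : IntermediateField ℚ Qb) [FiniteDimensional ℚ E], E₂ ≤ E →
        ∃ f : ℕ, 0 < f ∧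
          Nat.card (IsLocalRing.ResidueField ↥(s18dVal A (ssgfE0 A E))) = q ^ (2 * f) := by
  obtain ⟨ζ, hζ⟩ := sqde_exists_root q hq
  have hq2 : 2 ≤ q := hq.two_le
  have hqq : q * 2 ≤ q ^ 2 := by rw [pow_two]; exact Nat.mul_le_mul_left q hq2
  have hint : IsIntegral ℚ ζ := (hζ.isIntegral (by omega)).tower_top
  refine ⟨IntermediateField.adjoin ℚ {ζ}, IntermediateField.adjoin.finiteDimensional hint, ?_⟩
  intro E _ hE
  exact sqde_card A hq hA E ζ hζ (hE (IntermediateField.mem_adjoin_simple_self ℚ ζ))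

/-- `s^f` is trivial on `A / ϖ` : `q ∣ a ^ |k| − a` in `B = 𝔸 ∩ E₀`. -/
theorem sqde_frob_trivial (A : ValuationSubring Qb) {q : ℕ} (hq : q.Prime)
    (hA : A.LiesOverPrime q) (E : IntermediateField ℚ Qb) [FiniteDimensional ℚ E] [Normal ℚ E]
    {N : ℕ} (hN : Nat.card (IsLocalRing.ResidueField ↥(s18dVal A (ssgfE0 A E))) = N)
    (a : ↥(s18dVal A (ssgfE0 A E))) :
    ((q : ℕ) : ↥(s18dVal A (ssgfE0 A E))) ∣ a ^ N - a := by
  haveI : Fact q.Prime := ⟨hq⟩
  haveI : NumberField (ssgfE0 A E) :=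
    { to_charZero := inferInstance, to_finiteDimensional := inferInstance }
  haveI : IsDiscreteValuationRing ↥(s18dVal A (ssgfE0 A E)) := s18d_isDVR A (ssgfE0 A E) hA
  haveI := sqde_finite_residue (s18dVal A (ssgfE0 A E)) hq (sqde_q_mem A hA _)
  rw [← hN]
  exact sqde_pow_card_sub (sqdi_irreducible A hq hA E).maximalIdeal_eq a

/-- `k(𝔰) ⊆ 𝔽_{|k|} = A / ϖ` : in a field `K` receiving `B / q`, every solution of `x ^ |k| = x`
is the image of an element of `B = 𝔸 ∩ E₀`. -/
theorem sqde_residue_rational (A : ValuationSubring Qb) {q : ℕ} (hq : q.Prime)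
    (hA : A.LiesOverPrime q) (E : IntermediateField ℚ Qb) [FiniteDimensional ℚ E] [Normal ℚ E]
    {N : ℕ} (hN : Nat.card (IsLocalRing.ResidueField ↥(s18dVal A (ssgfE0 A E))) = N)
    {K : Type*} [Field K] (φ : ↥(s18dVal A (ssgfE0 A E)) →+* K)
    (hφ : φ ((q : ℕ) : ↥(s18dVal A (ssgfE0 A E))) = 0) (x : K) (hx : x ^ N = x) :
    ∃ a : ↥(s18dVal A (ssgfE0 A E)), φ a = x := by
  haveI : Fact q.Prime := ⟨hq⟩
  haveI : NumberField (ssgfE0 A E) :=
    { to_charZero := inferInstance, to_finiteDimensional := inferInstance }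
  haveI : IsDiscreteValuationRing ↥(s18dVal A (ssgfE0 A E)) := s18d_isDVR A (ssgfE0 A E) hA
  haveI := sqde_finite_residue (s18dVal A (ssgfE0 A E)) hq (sqde_q_mem A hA _)
  refine sqde_exists_of_pow_card φ ?_ x (by rw [hN]; exact hx)
  intro a ha
  rw [(sqdi_irreducible A hq hA E).maximalIdeal_eq, Ideal.mem_span_singleton] at ha
  obtain ⟨b, rfl⟩ := ha
  rw [map_mul, hφ, zero_mul]

end Fermat.Agent.SQ
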